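import Fermat.Agent.ML.TWFree.Lev
import Fermat.Agent.ML.TWFree.GrowFam
import Fermat.Agent.ML.Low.Main.PerLevel
import Fermat.Agent.RIB.Grow.Div

/-!
# ML / TWFREE / Inst / Edge : [W2] the one-step datum `FHyp` for the `θ`-parts on an edge `L ⟶ N' = L l l`
-/

set_option autoImplicit false

noncomputable section

open AlgebraicCurve ModularCurve

namespace Fermat.Agent.ML.TWFree

open Fermat.Agent.RIB Fermat.Agent.GAL Fermat.Agent.GAL.PC

local notation "Qbar" => AlgebraicClosure ℚ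
local notation "GQ" => (AlgebraicClosure ℚ ≃ₐ[ℚ] AlgebraicClosure ℚ)
local notation "M₂" => Matrix (Fin 2) (Fin 2)

variable {p : ℕ} [Fact p.Prime] {T : Finset ℕ} {θ : ℕ → ℤ} {rbar0 : GQ →* M₂ (ZMod p)}
  {S : Finset ℕ} {L l ν : ℕ} [NeZero L] [NeZero l]

/-- the datum at the literal level `L * l * l`. -/
theorem edge_rfl (EC : MCtx p T θ rbar0) (SC : MStep p T θ S L l ν)
    {A : ValuationSubring Qbar} (hA : A.LiesOverPrime l) (τ₀ : GQ)
    (hτ₀ : τ₀ ∈ A.inertiaSubgroupIn ℚ)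
    (hgen : ∀ x ∈ thetaPart (L * l * l) p (↑S : Set ℕ) θ, p ^ (ν + 1) • x = 0 → τ₀ • x = x →
      ∀ τ ∈ A.inertiaSubgroupIn ℚ, τ • x = x) :
    FHyp p l ν (thetaPart L p (↑S : Set ℕ) θ) (thetaPart (L * l * l) p (↑S : Set ℕ) θ)
      (heckeOperatorBar L ⟨l, SC.hl⟩).toAddMonoidHom (iot L l) (Pii L l)
      (DistribSMul.toAddMonoidHom (JZero (L * l * l)) τ₀) := by
  have hp : p.Prime := Fact.out
  have hio : ∀ i, ∀ v ∈ thetaPart L p (↑S : Set ℕ) θ,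
      iot L l i v ∈ thetaPart (L * l * l) p (↑S : Set ℕ) θ :=
    fun i v hv => iot_mem_thetaPart SC.hS' i hv
  have hPi : ∀ i, ∀ x ∈ thetaPart (L * l * l) p (↑S : Set ℕ) θ,
      Pii L l i x ∈ thetaPart L p (↑S : Set ℕ) θ :=
    fun i v hv => Pii_mem_thetaPart SC.hS' i hv
  have hT : ∀ v ∈ thetaPart L p (↑S : Set ℕ) θ,
      heckeOperatorBar L ⟨l, SC.hl⟩ v ∈ thetaPart L p (↑S : Set ℕ) θ :=
    fun v hv => hecke_mem_thetaPart _ hv
  have hτX : ∀ x ∈ thetaPart (L * l * l) p (↑S : Set ℕ) θ,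
      τ₀ • x ∈ thetaPart (L * l * l) p (↑S : Set ℕ) θ :=
    fun x hx => smul_mem_thetaPart τ₀ hx
  have hinj := Low.ctrl_inj EC SC
  have H := hyp_of_sub (S := (↑S : Set ℕ)) (θ := θ) hp EC.hp2 SC.hl SC.hlL SC.hν SC.hdvd SC.hex hA
    (thetaPart L p (↑S : Set ℕ) θ) (thetaPart (L * l * l) p (↑S : Set ℕ) θ) le_rfl le_rfl
    hio hPi hT (fun v hv _ => hv)
    (thetaPart_divisible L hp.pos _ θ) (thetaPart_divisible (L * l * l) hp.pos _ θ)
    (fun v hv => WA.exists_Pii_eq_one hp SC.hS'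
      (fun v hv _ h0 i => congrFun (hinj v hv h0) i) v (fun i => (hv i).1) (fun i => (hv i).2))
    (Low.ctrl_surj EC SC hA)
    (fun v hv h0 i => congrFun (hinj v (fun i => (hv i).1) h0) i)
    (Low.rho_ord EC SC hA) (Low.unit_step EC SC) τ₀ hτ₀ hτX hgen
  refine FHyp.of_hyp EC.hp2 SC.hex hT hio hPi hτX H ?_
  intro x hx hpx hfix
  obtain ⟨v, hv, e⟩ := Low.ctrl_surj EC SC hA x hx (hgen x hx (by
    rw [pow_succ, mul_smul, hpx, smul_zero]) hfix)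
  exact ⟨v, hv, by rw [← e, iota_apply']⟩

/-- **[W2]** the datum with a free upper level. -/
theorem edge_E {N' : ℕ} [NeZero N'] (EC : MCtx p T θ rbar0) (SC : MStep p T θ S L l ν)
    (h : N' = L * l * l)
    {A : ValuationSubring Qbar} (hA : A.LiesOverPrime l) (τ₀ : GQ)
    (hτ₀ : τ₀ ∈ A.inertiaSubgroupIn ℚ)
    (hgen : ∀ x ∈ thetaPart N' p (↑S : Set ℕ) θ, p ^ (ν + 1) • x = 0 → τ₀ • x = x →
      ∀ τ ∈ A.inertiaSubgroupIn ℚ, τ • x = x) :
    FHyp p l ν (thetaPart L p (↑S : Set ℕ) θ) (thetaPart N' p (↑S : Set ℕ) θ)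
      (heckeOperatorBar L ⟨l, SC.hl⟩).toAddMonoidHom (ioE h) (PiE h)
      (DistribSMul.toAddMonoidHom (JZero N') τ₀) := by
  subst h
  exact edge_rfl EC SC hA τ₀ hτ₀ hgen

end Fermat.Agent.ML.TWFree
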