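import Fermat.Agent.ML.TWFree.Lev
import Fermat.Agent.ML.Low.Main.PerLevel
import Fermat.Agent.RIB.Grow.Tau

/-!
# ML / TWFREE / Inst / Tau : [W3] ONE inertia generator `τ i` per Taylor–Wiles prime, for ALL the levels of the cube

* `mem_cutS_lev` : every prime of `lev L₀ qv Q * p` is in `cutS T qv`;
* `mstepLev` : the one-step context `MStep` on the edge `Q ⟶ insert j Q`;
* `gen_descent` : the property "`τ₀`-fixed ⟹ inertia-fixed" descends from the level `N * l * l` to the level `N`;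
* `exists_tau` : **[W3]**.
-/

set_option autoImplicit false
set_option linter.unusedSectionVars false

noncomputable section

open AlgebraicCurve ModularCurve

namespace Fermat.Agent.ML.TWFree

open Fermat.Agent.RIB Fermat.Agent.GAL Fermat.Agent.GAL.PC

local notation "Qbar" => AlgebraicClosure ℚ
local notation "GQ" => (AlgebraicClosure ℚ ≃ₐ[ℚ] AlgebraicClosure ℚ)
local notation "M₂" => Matrix (Fin 2) (Fin 2)

variable {p : ℕ} [Fact p.Prime] {T : Finset ℕ} {θ : ℕ → ℤ} {rbar0 : GQ →* M₂ (ZMod p)}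

namespace Tau

/-- every prime of `lev L₀ qv Q * p` is in `cutS T qv`. -/
theorem mem_cutS_lev {L₀ t n : ℕ} {qv : Fin t → Nat.Primes} (h : MTW p T θ L₀ t n qv)
    (Q : Finset (Fin t)) {r : ℕ} (hr : r.Prime) (hd : r ∣ lev L₀ qv Q * p) : r ∈ cutS T qv := by
  have h1 : lev L₀ qv Q * p
      = (L₀ * p) * ∏ i ∈ Q, (((qv i : Nat.Primes) : ℕ) * ((qv i : Nat.Primes) : ℕ)) := by
    rw [lev]; ring
  rw [h1] at hd
  rcases (Nat.Prime.dvd_mul hr).1 hd with h2 | h2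
  · exact subset_cutS T qv (h.lev r hr h2)
  · obtain ⟨i, -, hi⟩ := (Prime.dvd_finsetProd_iff (Nat.prime_iff.1 hr) _).1 h2
    have h5 : r ∣ ((qv i : Nat.Primes) : ℕ) := by
      rcases (Nat.Prime.dvd_mul hr).1 hi with h | h <;> exact h
    rw [(Nat.prime_dvd_prime_iff_eq hr (qv i).2).1 h5]
    exact mem_cutS_qv T qv _

/-- `l_j` does not divide `lev L₀ qv Q` for `j ∉ Q`. -/
theorem not_dvd_lev {L₀ t n : ℕ} {qv : Fin t → Nat.Primes} (h : MTW p T θ L₀ t n qv)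
    {Q : Finset (Fin t)} {j : Fin t} (hj : j ∉ Q) :
    ¬ ((qv j : Nat.Primes) : ℕ) ∣ lev L₀ qv Q := by
  intro hd
  rw [lev] at hd
  rcases (Nat.Prime.dvd_mul (qv j).2).1 hd with h2 | h2
  · exact h.notT j (h.lev _ (qv j).2 (h2.mul_right p))
  · obtain ⟨i, hiQ, hi⟩ := (Prime.dvd_finsetProd_iff (Nat.prime_iff.1 (qv j).2) _).1 h2
    have h5 : ((qv j : Nat.Primes) : ℕ) ∣ ((qv i : Nat.Primes) : ℕ) := by
      rcases (Nat.Prime.dvd_mul (qv j).2).1 hi with h | h <;> exact h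
    have h6 : qv j = qv i := Subtype.ext ((Nat.prime_dvd_prime_iff_eq (qv j).2 (qv i).2).1 h5)
    exact hj (h.inj h6 ▸ hiQ)

theorem pow_nuP_dvd {t : ℕ} (qv : Fin t → Nat.Primes) (j : Fin t) :
    p ^ nuP p qv j ∣ ((qv j : Nat.Primes) : ℕ) - 1 := pow_padicValNat_dvd

theorem not_pow_nuP_succ_dvd {t : ℕ} (qv : Fin t → Nat.Primes) (j : Fin t) :
    ¬ p ^ (nuP p qv j + 1) ∣ ((qv j : Nat.Primes) : ℕ) - 1 := by
  have h1 : ((qv j : Nat.Primes) : ℕ) - 1 ≠ 0 := by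
    have := (qv j).2.two_le
    omega
  exact pow_succ_padicValNat_not_dvd h1

/-- the one-step context on the edge `Q ⟶ insert j Q`. -/
theorem mstepLev {L₀ t n : ℕ} {qv : Fin t → Nat.Primes} (h : MTW p T θ L₀ t n qv)
    {Q : Finset (Fin t)} {j : Fin t} (hj : j ∉ Q) :
    MStep p T θ (cutS T qv) (lev L₀ qv Q) ((qv j : Nat.Primes) : ℕ) (nuP p qv j) where
  hl := (qv j).2
  hlT := h.notT j
  hTS := subset_cutS T qv
  hlL := not_dvd_lev h hj
  rigid := h.rigid.mul_right _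
  hS := fun r hr hd => by
    rw [← lev_insert L₀ qv hj] at hd
    exact mem_cutS_lev h _ hr hd
  hν := le_trans (Nat.le_add_left 1 n) (h.le_nuP j)
  hdvd := pow_nuP_dvd qv j
  hex := not_pow_nuP_succ_dvd qv j
  disc := h.disc j

/-- the property "`τ₀`-fixed ⟹ `I`-fixed" on the `m`-torsion of the `θ`-part descends along `iot _ _ 0`. -/
theorem gen_descent {S : Finset ℕ} {N N' l ν : ℕ} [NeZero N] [NeZero N'] [NeZero l]
    (EC : MCtx p T θ rbar0) (SC : MStep p T θ S N l ν) (h : N' = N * l * l)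
    (I : Subgroup GQ) (τ₀ : GQ) (m : ℕ)
    (H : ∀ x ∈ thetaPart N' p (↑S : Set ℕ) θ, m • x = 0 → τ₀ • x = x → ∀ σ ∈ I, σ • x = x) :
    ∀ x ∈ thetaPart N p (↑S : Set ℕ) θ, m • x = 0 → τ₀ • x = x → ∀ σ ∈ I, σ • x = x := by
  subst h
  intro x hx hm h0 σ hσ
  have hS : ∀ r : ℕ, r.Prime → r ∉ (↑S : Set ℕ) → ¬ r ∣ N * l * l * p := fun r hr hrS hd =>
    hrS (Finset.mem_coe.2 (SC.hS r hr hd))
  have h1 := H (iot N l 0 x) (iot_mem_thetaPart hS 0 hx) (by rw [← map_nsmul, hm, map_zero])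
    (by rw [← iot_smul, h0]) σ hσ
  rw [← iot_smul] at h1
  have h2 : iot N l 0 (σ • x - x) = 0 := by rw [map_sub, h1, sub_self]
  have h3 := Low.ctrl_inj EC SC (fun i => if i = 0 then σ • x - x else 0)
    (fun i => by
      by_cases hi : i = 0
      · simp only [hi, if_true]
        exact AddSubgroup.sub_mem _ (smul_mem_thetaPart σ hx) hx
      · simp only [hi, if_false]
        exact AddSubgroup.zero_mem _)
    (by
      rw [iota_apply']
      simp [h2])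
  have h4 := congrFun h3 0
  simp only [if_true, Pi.zero_apply] at h4
  exact sub_eq_zero.1 h4

/-- descent from `R ∪ Q` to `Q`. -/
theorem gen_descent_union {L₀ t n : ℕ} [NeZero L₀] {qv : Fin t → Nat.Primes}
    (EC : MCtx p T θ rbar0) (TC : MTW p T θ L₀ t n qv) (I : Subgroup GQ) (τ₀ : GQ) (m : ℕ)
    (R : Finset (Fin t)) : ∀ Q : Finset (Fin t), Disjoint R Q →
    (∀ x ∈ thetaPart (lev L₀ qv (R ∪ Q)) p (↑(cutS T qv) : Set ℕ) θ, m • x = 0 → τ₀ • x = x →
      ∀ σ ∈ I, σ • x = x) →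
    ∀ x ∈ thetaPart (lev L₀ qv Q) p (↑(cutS T qv) : Set ℕ) θ, m • x = 0 → τ₀ • x = x →
      ∀ σ ∈ I, σ • x = x := by
  classical
  induction R using Finset.induction_on with
  | empty =>
    intro Q _ H
    rwa [Finset.empty_union] at H
  | insert j R hj ih =>
    intro Q hd H
    rw [Finset.disjoint_insert_left] at hd
    refine ih Q hd.2 ?_
    have hj' : j ∉ R ∪ Q := fun h => (Finset.mem_union.1 h).elim hj hd.1
    rw [Finset.insert_union] at H
    exact gen_descent EC (mstepLev TC hj') (lev_insert L₀ qv hj') I τ₀ m H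

end Tau

open Tau in
/-- **[W3]** : one place `A i ∣ l_i` and one `τ i ∈ I_(A i)` for ALL the levels `lev L₀ qv Q`. -/
theorem exists_tau {L₀ t n : ℕ} [NeZero L₀] {qv : Fin t → Nat.Primes}
    (EC : MCtx p T θ rbar0) (TC : MTW p T θ L₀ t n qv) :
    ∃ (A : Fin t → ValuationSubring Qbar) (τ : Fin t → GQ),
      (∀ i, (A i).LiesOverPrime ((qv i : Nat.Primes) : ℕ)) ∧
      (∀ i, τ i ∈ (A i).inertiaSubgroupIn ℚ) ∧
      ∀ (i : Fin t) (Q : Finset (Fin t)),
        ∀ x ∈ thetaPart (lev L₀ qv Q) p (↑(cutS T qv) : Set ℕ) θ,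
          p ^ (nuP p qv i + 1) • x = 0 → τ i • x = x →
          ∀ σ ∈ (A i).inertiaSubgroupIn ℚ, σ • x = x := by
  classical
  have hp : p.Prime := Fact.out
  have key : ∀ i : Fin t, ∃ (A : ValuationSubring Qbar) (τ : GQ),
      A.LiesOverPrime ((qv i : Nat.Primes) : ℕ) ∧ τ ∈ A.inertiaSubgroupIn ℚ ∧
      ∀ Q : Finset (Fin t), ∀ x ∈ thetaPart (lev L₀ qv Q) p (↑(cutS T qv) : Set ℕ) θ,
          p ^ (nuP p qv i + 1) • x = 0 → τ • x = x →
          ∀ σ ∈ A.inertiaSubgroupIn ℚ, σ • x = x := by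
    intro i
    obtain ⟨A, hA⟩ := S54.exists_liesOverPrime (qv i).2
    have hpl : p ≠ ((qv i : Nat.Primes) : ℕ) := fun h => TC.notT i (h ▸ EC.p_mem)
    have hrho := Low.rhoOrd EC (cutS T qv) (subset_cutS T qv) (lev L₀ qv Finset.univ)
      (fun r hr hd => mem_cutS_lev TC _ hr hd) (qv i).2 (TC.notT i)
      (le_trans (Nat.le_add_left 1 n) (TC.le_nuP i)) (pow_nuP_dvd qv i)
      (not_pow_nuP_succ_dvd qv i) (TC.disc i) hA
    obtain ⟨τ₀, hτ₀, hgen⟩ := exists_tau0 (qv i).2 hA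
      (thetaPart (lev L₀ qv Finset.univ) p (↑(cutS T qv) : Set ℕ) θ ⊓
        (nsmulAddMonoidHom (p ^ (nuP p qv i + 1))).ker)
      (fun τ _ x hx => ⟨smul_mem_thetaPart τ hx.1, by
        have h2 : p ^ (nuP p qv i + 1) • x = 0 := hx.2
        show p ^ (nuP p qv i + 1) • (τ • x) = 0
        have h3 := (DistribSMul.toAddMonoidHom (JZero (lev L₀ qv Finset.univ)) τ).map_nsmul
          (p ^ (nuP p qv i + 1)) x
        rw [h2, map_zero] at h3
        exact h3.symm⟩)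
      (p ^ (nuP p qv i + 1)) (pow_ne_zero _ hp.ne_zero) (fun x hx => hx.2) (p ^ nuP p qv i)
      (Nat.Coprime.pow_left _ ((Nat.coprime_primes hp (qv i).2).2 hpl))
      (fun τ hτ x hx => hrho τ hτ x hx.1)
    refine ⟨A, τ₀, hA, hτ₀, fun Q => ?_⟩
    refine gen_descent_union EC TC (A.inertiaSubgroupIn ℚ) τ₀ _ (Finset.univ \ Q) Q
      Finset.sdiff_disjoint ?_
    rw [Finset.sdiff_union_of_subset (Finset.subset_univ Q)]
    exact fun x hx hm h0 => hgen x ⟨hx, hm⟩ h0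
  choose A τ h1 h2 h3 using key
  exact ⟨A, τ, h1, h2, h3⟩

end Fermat.Agent.ML.TWFree
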