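import Fermat.Agent.ML.TWFree.Inst.Cube
import Fermat.Agent.ML.TWFree.Inst.Edge
import Fermat.Agent.ML.TWFree.Inst.Tau

/-!
# ML / TWFREE / Inst / Main : **`IsCube` is a theorem**

`exists_isCube` : for every residual context `MCtx` and every Taylor–Wiles datum `MTW` there are places `A i ∣ qv i` and
elements `τ i ∈ I_(A i)` such that the `θ`-parts of the levels `lev L₀ qv Q` form a `Cube`; moreover `τ i` "generates" the
inertia at `A i` on the `p^(ν_i + 1)`-torsion of every level of the cube.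
-/

set_option autoImplicit false

noncomputable section

open AlgebraicCurve ModularCurve

namespace Fermat.Agent.ML.TWFree

open Fermat.Agent.RIB Fermat.Agent.GAL Fermat.Agent.GAL.PC

local notation "Qbar" => AlgebraicClosure ℚ
local notation "GQ" => (AlgebraicClosure ℚ ≃ₐ[ℚ] AlgebraicClosure ℚ)
local notation "M₂" => Matrix (Fin 2) (Fin 2)

variable {p : ℕ} [Fact p.Prime] {T : Finset ℕ} {θ : ℕ → ℤ} {rbar0 : GQ →* M₂ (ZMod p)}
  {L₀ t n : ℕ} [NeZero L₀] {qv : Fin t → Nat.Primes}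

/-- `IsCube` from a choice of generators of inertia. -/
theorem isCube_of_tau (EC : MCtx p T θ rbar0) (TC : MTW p T θ L₀ t n qv)
    (A : Fin t → ValuationSubring Qbar) (τ : Fin t → GQ)
    (hA : ∀ i, (A i).LiesOverPrime ((qv i : Nat.Primes) : ℕ))
    (hτ : ∀ i, τ i ∈ (A i).inertiaSubgroupIn ℚ)
    (hgen : ∀ (i : Fin t) (Q : Finset (Fin t)),
      ∀ x ∈ thetaPart (lev L₀ qv Q) p (↑(cutS T qv) : Set ℕ) θ,
        p ^ (nuP p qv i + 1) • x = 0 → τ i • x = x →
        ∀ σ ∈ (A i).inertiaSubgroupIn ℚ, σ • x = x) :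
    IsCube p (↑(cutS T qv) : Set ℕ) θ L₀ qv τ :=
  isCube_of_edges TC _ τ fun Q l hl =>
    edge_E EC (TC.mstep_lev hl) (lev_insert L₀ qv hl) (hA l) (τ l) (hτ l) (hgen l (insert l Q))

/-- **`IsCube` is a theorem.** -/
theorem exists_isCube (EC : MCtx p T θ rbar0) (TC : MTW p T θ L₀ t n qv) :
    ∃ (A : Fin t → ValuationSubring Qbar) (τ : Fin t → GQ),
      (∀ i, (A i).LiesOverPrime ((qv i : Nat.Primes) : ℕ)) ∧
      (∀ i, τ i ∈ (A i).inertiaSubgroupIn ℚ) ∧
      (∀ (i : Fin t) (Q : Finset (Fin t)),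
        ∀ x ∈ thetaPart (lev L₀ qv Q) p (↑(cutS T qv) : Set ℕ) θ,
          p ^ (nuP p qv i + 1) • x = 0 → τ i • x = x →
          ∀ σ ∈ (A i).inertiaSubgroupIn ℚ, σ • x = x) ∧
      IsCube p (↑(cutS T qv) : Set ℕ) θ L₀ qv τ := by
  obtain ⟨A, τ, hA, hτ, hgen⟩ := exists_tau EC TC
  exact ⟨A, τ, hA, hτ, hgen, isCube_of_tau EC TC A τ hA hτ hgen⟩

end Fermat.Agent.ML.TWFree
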