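import Fermat.Agent.ML.TWFree.Lev
import Fermat.Agent.ML.Deg.CommTwo

/-!
# ML / TWFREE / Inst / Sq : [W1] the squares (SS), (SP), (PP) for `PiE`, `ioE` with FREE levels
-/

set_option autoImplicit false

noncomputable section

open AlgebraicCurve ModularCurve

namespace Fermat.Agent.ML.TWFree

open Fermat.Agent.RIB Fermat.Agent.GAL Fermat.Agent.GAL.PC

variable {M Na Nb Nab a b : ℕ} [NeZero M] [NeZero Na] [NeZero Nb] [NeZero Nab] [NeZero a]
  [NeZero b]

/-- (SS) push–push -/
theorem PiE_PiE (ha : Na = M * a * a) (hb : Nb = M * b * b) (hab : Nab = Na * b * b)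
    (hba : Nab = Nb * a * a) (i j : Fin 3) (y : JZero Nab) :
    PiE ha i (PiE hab j y) = PiE hb j (PiE hba i y) := by
  subst ha hb hab
  exact (Pii_Pii_sw22 M a b i j y).symm

/-- (PP) pull–pull -/
theorem ioE_ioE (ha : Na = M * a * a) (hb : Nb = M * b * b) (hab : Nab = Na * b * b)
    (hba : Nab = Nb * a * a) (i j : Fin 3) (x : JZero M) :
    ioE hab j (ioE ha i x) = ioE hba i (ioE hb j x) := by
  subst ha hb hab
  have h := sw22_iot_iot M a b i j x
  have h2 := congrArg (sw22 M b a) h
  rw [sw22_sw22] at h2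
  exact h2

/-- (SP) base change: push at `a` after pull at `b` -/
theorem PiE_ioE (hpa : a.Prime) (hpb : b.Prime) (hne : a ≠ b) (ha : Na = M * a * a)
    (hb : Nb = M * b * b) (hab : Nab = Na * b * b) (hba : Nab = Nb * a * a) (i j : Fin 3)
    (x : JZero Na) :
    PiE hba i (ioE hab j x) = ioE hb j (PiE ha i x) := by
  subst ha hb hab
  exact Pii_sw22_iot M hpa hpb hne.symm i j x

end Fermat.Agent.ML.TWFree
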