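import Fermat.Agent.ML.TWFree.Inst.Step
import Fermat.Agent.ML.TWFree.Inst.Sq

/-!
# ML / TWFREE / Inst / QSq : the one-step degeneracy maps at a prime `q` with FREE levels, on the cube

* `upE h c : J₀(N) → J₀(N')`, `dnE h c : J₀(N') → J₀(N)` for `h : N' = N * q`; `c = 0` : `α_q`, `c = 1` : `β_q`;
* Galois / Hecke equivariance, `θ`-parts;
* the four squares against `ioE`, `PiE` (two-step maps at `l ≠ q`);
* `upQ`, `dnQ` : the same maps between the cubes of levels `lev L qv Q` and `lev L' qv Q`, `L' = L * q`, and their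
  commutation with `ioQ`, `PiQ`, `TQ`, `tauQ`;
* `up2Q`, `dn2Q` : the two-step maps at `q` between the cubes `lev L qv Q` and `lev L' qv Q`, `L' = L * q * q`.
-/

set_option autoImplicit false
set_option linter.unusedSectionVars false

noncomputable section

open AlgebraicCurve ModularCurve

namespace Fermat.Agent.ML.TWFree

open Fermat.Agent.RIB Fermat.Agent.GAL Fermat.Agent.GAL.PC Fermat.Agent.ML

local notation "GQ" => (AlgebraicClosure ℚ ≃ₐ[ℚ] AlgebraicClosure ℚ)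

section E1

variable {N N' q : ℕ} [NeZero N] [NeZero N'] [NeZero q]

/-- `α_q^*` (`c = 0`), `β_q^*` (`c = 1`) with a free upper level -/
def upE (h : N' = N * q) (c : Fin 2) : JZero N →+ JZero N' :=
  (castJ h.symm).toAddMonoidHom.comp ((![pullA N q, pullB N q] : Fin 2 → _) c)

/-- `α_{q *}` (`c = 0`), `β_{q *}` (`c = 1`) with a free upper level -/
def dnE (h : N' = N * q) (c : Fin 2) : JZero N' →+ JZero N :=
  ((![SS.pushA N q, SS.pushB N q] : Fin 2 → _) c).comp (castJ h).toAddMonoidHom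

theorem upE_zero (h : N' = N * q) (x : JZero N) : upE h 0 x = castJ h.symm (pullA N q x) := rfl
theorem upE_one (h : N' = N * q) (x : JZero N) : upE h 1 x = castJ h.symm (pullB N q x) := rfl
theorem dnE_zero (h : N' = N * q) (y : JZero N') : dnE h 0 y = SS.pushA N q (castJ h y) := rfl
theorem dnE_one (h : N' = N * q) (y : JZero N') : dnE h 1 y = SS.pushB N q (castJ h y) := rfl

theorem upE_smul (h : N' = N * q) (c : Fin 2) (σ : GQ) (x : JZero N) :
    upE h c (σ • x) = σ • upE h c x := by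
  fin_cases c
  · show upE h 0 (σ • x) = σ • upE h 0 x
    rw [upE_zero, upE_zero, pullA_smul, castJ_smul]
  · show upE h 1 (σ • x) = σ • upE h 1 x
    rw [upE_one, upE_one, pullB_smul, castJ_smul]

theorem dnE_smul (h : N' = N * q) (c : Fin 2) (σ : GQ) (y : JZero N') :
    dnE h c (σ • y) = σ • dnE h c y := by
  fin_cases c
  · show dnE h 0 (σ • y) = σ • dnE h 0 y
    rw [dnE_zero, dnE_zero, castJ_smul, SS.pushA_smul]
  · show dnE h 1 (σ • y) = σ • dnE h 1 y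
    rw [dnE_one, dnE_one, castJ_smul, SS.pushB_smul]

variable {p : ℕ} {S : Set ℕ} {θ : ℕ → ℤ}

theorem not_dvd_low (h : N' = N * q) {r : ℕ} (hr : ¬ r ∣ N' * p) : ¬ r ∣ N * p := fun h' =>
  hr (h'.trans (Nat.mul_dvd_mul_right (h ▸ Dvd.intro _ rfl) p))

theorem upE_hecke (h : N' = N * q) (c : Fin 2) (r : Nat.Primes) (hr : ¬ (r : ℕ) ∣ N' * p)
    (x : JZero N) (hx : x ∈ ptors (JZero N) p) :
    upE h c (heckeOperatorBar N r x) = heckeOperatorBar N' r (upE h c x) :=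
  SS.map_hecke_of_equivariant (SS.es_all N p).2 (SS.es_all N' p).2 (upE h c) (upE_smul h c) r
    (not_dvd_low h hr) hr x hx

theorem dnE_hecke (h : N' = N * q) (c : Fin 2) (r : Nat.Primes) (hr : ¬ (r : ℕ) ∣ N' * p)
    (y : JZero N') (hy : y ∈ ptors (JZero N') p) :
    dnE h c (heckeOperatorBar N' r y) = heckeOperatorBar N r (dnE h c y) :=
  SS.map_hecke_of_equivariant (SS.es_all N' p).2 (SS.es_all N p).2 (dnE h c) (dnE_smul h c) r
    hr (not_dvd_low h hr) y hy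

theorem upE_mem_thetaPart (h : N' = N * q) (hS : ∀ r : ℕ, r.Prime → r ∉ S → ¬ r ∣ N' * p)
    (c : Fin 2) {x : JZero N} (hx : x ∈ thetaPart N p S θ) : upE h c x ∈ thetaPart N' p S θ :=
  map_mem_thetaPart_of_equivariant (upE h c) (upE_smul h c)
    (fun r hr hrS => ⟨not_dvd_low h (hS r hr hrS), hS r hr hrS⟩) hx

theorem dnE_mem_thetaPart (h : N' = N * q) (hS : ∀ r : ℕ, r.Prime → r ∉ S → ¬ r ∣ N' * p)
    (c : Fin 2) {y : JZero N'} (hy : y ∈ thetaPart N' p S θ) : dnE h c y ∈ thetaPart N p S θ :=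
  map_mem_thetaPart_of_equivariant (dnE h c) (dnE_smul h c)
    (fun r hr hrS => ⟨hS r hr hrS, not_dvd_low h (hS r hr hrS)⟩) hy

end E1

section E2

variable {N N' l : ℕ} [NeZero N] [NeZero N'] [NeZero l] {p : ℕ} {S : Set ℕ} {θ : ℕ → ℤ}

theorem ioE_mem_thetaPart (h : N' = N * l * l) (hS : ∀ r : ℕ, r.Prime → r ∉ S → ¬ r ∣ N' * p)
    (i : Fin 3) {x : JZero N} (hx : x ∈ thetaPart N p S θ) : ioE h i x ∈ thetaPart N' p S θ := by
  subst h
  exact iot_mem_thetaPart hS i hx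

theorem PiE_mem_thetaPart (h : N' = N * l * l) (hS : ∀ r : ℕ, r.Prime → r ∉ S → ¬ r ∣ N' * p)
    (i : Fin 3) {y : JZero N'} (hy : y ∈ thetaPart N' p S θ) : PiE h i y ∈ thetaPart N p S θ := by
  subst h
  exact Pii_mem_thetaPart hS i hy

end E2

section Squares

variable {M Mq Ml T q l : ℕ} [NeZero M] [NeZero Mq] [NeZero Ml] [NeZero T] [NeZero q] [NeZero l]

/-- (PP) pull at `q`, pull at `l`. -/
theorem ioE_upE (hq : Mq = M * q) (hl : Ml = M * l * l) (hql : T = Mq * l * l) (hlq : T = Ml * q)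
    (j : Fin 3) (c : Fin 2) (x : JZero M) :
    ioE hql j (upE hq c x) = upE hlq c (ioE hl j x) := by
  subst hq hl hql
  fin_cases c
  · show ioE rfl j (upE rfl 0 x) = upE hlq 0 (ioE rfl j x)
    rw [ioE_rfl, ioE_rfl, upE_zero, upE_zero, castJ_rfl, ← sw2_iot_pullA, castJ_castJ, castJ_rfl]
  · show ioE rfl j (upE rfl 1 x) = upE hlq 1 (ioE rfl j x)
    rw [ioE_rfl, ioE_rfl, upE_one, upE_one, castJ_rfl, ← sw2_iot_pullB, castJ_castJ, castJ_rfl]

/-- (SS) push at `q`, push at `l`. -/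
theorem PiE_dnE (hq : Mq = M * q) (hl : Ml = M * l * l) (hql : T = Mq * l * l) (hlq : T = Ml * q)
    (j : Fin 3) (c : Fin 2) (y : JZero T) :
    PiE hl j (dnE hlq c y) = dnE hq c (PiE hql j y) := by
  subst hq hl hql
  fin_cases c
  · show PiE rfl j (dnE hlq 0 y) = dnE rfl 0 (PiE rfl j y)
    rw [PiE_rfl, PiE_rfl, dnE_zero, dnE_zero, castJ_rfl]
    exact Pii_pushA_sw2 M q l j y
  · show PiE rfl j (dnE hlq 1 y) = dnE rfl 1 (PiE rfl j y)
    rw [PiE_rfl, PiE_rfl, dnE_one, dnE_one, castJ_rfl]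
    exact Pii_pushB_sw2 M q l j y

/-- (SP) push at `l` after pull at `q`. -/
theorem PiE_upE (hpq : q.Prime) (hpl : l.Prime) (hne : q ≠ l)
    (hq : Mq = M * q) (hl : Ml = M * l * l) (hql : T = Mq * l * l) (hlq : T = Ml * q)
    (j : Fin 3) (c : Fin 2) (z : JZero Ml) :
    PiE hql j (upE hlq c z) = upE hq c (PiE hl j z) := by
  subst hq hl hql
  fin_cases c
  · show PiE rfl j (upE hlq 0 z) = upE rfl 0 (PiE rfl j z)
    rw [PiE_rfl, PiE_rfl, upE_zero, upE_zero, castJ_rfl, ← Pii_sw2_symm_pullA M hpq hpl hne,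
      sw2_symm_apply]
  · show PiE rfl j (upE hlq 1 z) = upE rfl 1 (PiE rfl j z)
    rw [PiE_rfl, PiE_rfl, upE_one, upE_one, castJ_rfl, ← Pii_sw2_symm_pullB M hpq hpl hne,
      sw2_symm_apply]

/-- (PS) push at `q` after pull at `l`. -/
theorem dnE_ioE (hpq : q.Prime) (hpl : l.Prime) (hne : q ≠ l)
    (hq : Mq = M * q) (hl : Ml = M * l * l) (hql : T = Mq * l * l) (hlq : T = Ml * q)
    (j : Fin 3) (c : Fin 2) (w : JZero Mq) :
    dnE hlq c (ioE hql j w) = ioE hl j (dnE hq c w) := by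
  subst hq hl hql
  fin_cases c
  · show dnE hlq 0 (ioE rfl j w) = ioE rfl j (dnE rfl 0 w)
    rw [ioE_rfl, ioE_rfl, dnE_zero, dnE_zero, castJ_rfl]
    exact pushA_sw2_iot M hpq hpl hne j w
  · show dnE hlq 1 (ioE rfl j w) = ioE rfl j (dnE rfl 1 w)
    rw [ioE_rfl, ioE_rfl, dnE_one, dnE_one, castJ_rfl]
    exact pushB_sw2_iot M hpq hpl hne j w

end Squares

section Degree

variable {N N' q : ℕ} [NeZero N] [NeZero N'] [NeZero q]

/-- `δ_* δ^* = q` when `q ∣ N`. -/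
theorem dnE_upE_of_dvd (hq : q.Prime) (hqN : q ∣ N) (h : N' = N * q) (c : Fin 2) (x : JZero N) :
    dnE h c (upE h c x) = q • x := by
  subst h
  fin_cases c
  · show dnE rfl 0 (upE rfl 0 x) = q • x
    rw [dnE_zero, upE_zero, castJ_rfl, castJ_rfl, pushA_eq_jPush, pullA_eq_jPull, jPush_jPull,
      HeckeComm.finrankAlong_alpha_of_dvd N q hq hqN]
  · show dnE rfl 1 (upE rfl 1 x) = q • x
    rw [dnE_one, upE_one, castJ_rfl, castJ_rfl, pushB_eq_jPush, pullB_eq_jPull, jPush_jPull,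
      S36.Kum.finrankAlong_beta_eq_alpha' N q hq, HeckeComm.finrankAlong_alpha_of_dvd N q hq hqN]

/-- `δ_* δ^* = q + 1` when `q ∤ N`. -/
theorem dnE_upE_of_not_dvd (hq : q.Prime) (hqN : ¬ q ∣ N) (h : N' = N * q) (c : Fin 2)
    (x : JZero N) : dnE h c (upE h c x) = (q + 1) • x := by
  subst h
  fin_cases c
  · exact pushA_pullA N q hq hqN x
  · exact pushB_pullB N q hq hqN x

/-- `π_{i *} π_i^* = q (q + 1)` when `q ∤ N`. -/
theorem PiE_ioE_self (hq : q.Prime) (hqN : ¬ q ∣ N) (h : N' = N * q * q) (i : Fin 3)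
    (x : JZero N) : PiE h i (ioE h i x) = (q * (q + 1)) • x := by
  subst h
  rw [PiE_rfl, ioE_rfl]
  have hA : ∀ y : JZero (N * q), SS.pushA (N * q) q (pullA (N * q) q y) = q • y := fun y =>
    dnE_upE_of_dvd hq (Dvd.intro_left N rfl) rfl 0 y
  have hB : ∀ y : JZero (N * q), SS.pushB (N * q) q (pullB (N * q) q y) = q • y := fun y =>
    dnE_upE_of_dvd hq (Dvd.intro_left N rfl) rfl 1 y
  fin_cases i
  · show SS.pushA N q (SS.pushA (N * q) q (pullA (N * q) q (pullA N q x))) = _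
    rw [hA, map_nsmul, pushA_pullA N q hq hqN, mul_smul]
  · show SS.pushB N q (SS.pushA (N * q) q (pullA (N * q) q (pullB N q x))) = _
    rw [hA, map_nsmul, pushB_pullB N q hq hqN, mul_smul]
  · show SS.pushB N q (SS.pushB (N * q) q (pullB (N * q) q (pullB N q x))) = _
    rw [hB, map_nsmul, pushB_pullB N q hq hqN, mul_smul]

end Degree

section Cube1

variable {L L' q : ℕ} [NeZero L] [NeZero L'] [NeZero q] {t : ℕ} (qv : Fin t → Nat.Primes)

theorem lev_mul (hL : L' = L * q) (Q : Finset (Fin t)) : lev L' qv Q = lev L qv Q * q := by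
  subst hL; unfold lev; ring

/-- the edge condition does not depend on the base level. -/
theorem lev_edge_iff (hL : L' = L * q) (Q Q' : Finset (Fin t)) (l : ℕ) :
    lev L' qv Q' = lev L' qv Q * l * l ↔ lev L qv Q' = lev L qv Q * l * l := by
  rw [lev_mul qv hL, lev_mul qv hL]
  constructor
  · intro h
    refine Nat.eq_of_mul_eq_mul_right (NeZero.pos q) ?_
    rw [h]; ring
  · intro h
    rw [h]; ring

/-- `α_q^*`, `β_q^*` on the cube -/
def upQ (hL : L' = L * q) (Q : Finset (Fin t)) (c : Fin 2) :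
    JZero (lev L qv Q) →+ JZero (lev L' qv Q) := upE (lev_mul qv hL Q) c

/-- `α_{q *}`, `β_{q *}` on the cube -/
def dnQ (hL : L' = L * q) (Q : Finset (Fin t)) (c : Fin 2) :
    JZero (lev L' qv Q) →+ JZero (lev L qv Q) := dnE (lev_mul qv hL Q) c

variable {qv}

/-- (PP) on the cube -/
theorem ioQ_upQ (hL : L' = L * q) (Q Q' : Finset (Fin t)) (a : Fin t) (j : Fin 3) (c : Fin 2)
    (x : JZero (lev L qv Q)) :
    ioQ L' qv Q Q' a j (upQ qv hL Q c x) = upQ qv hL Q' c (ioQ L qv Q Q' a j x) := by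
  by_cases h : lev L qv Q' = lev L qv Q * ((qv a : Nat.Primes) : ℕ) * ((qv a : Nat.Primes) : ℕ)
  · have h' := (lev_edge_iff qv hL Q Q' _).2 h
    rw [ioQ_of_eq h, ioQ_of_eq h']
    exact ioE_upE (lev_mul qv hL Q) h h' (lev_mul qv hL Q') j c x
  · have h' := fun h' => h ((lev_edge_iff qv hL Q Q' _).1 h')
    rw [ioQ, ioQ, dif_neg h, dif_neg h']
    simp

/-- (SS) on the cube -/
theorem PiQ_dnQ (hL : L' = L * q) (Q Q' : Finset (Fin t)) (a : Fin t) (j : Fin 3) (c : Fin 2)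
    (y : JZero (lev L' qv Q')) :
    PiQ L qv Q Q' a j (dnQ qv hL Q' c y) = dnQ qv hL Q c (PiQ L' qv Q Q' a j y) := by
  by_cases h : lev L qv Q' = lev L qv Q * ((qv a : Nat.Primes) : ℕ) * ((qv a : Nat.Primes) : ℕ)
  · have h' := (lev_edge_iff qv hL Q Q' _).2 h
    rw [PiQ_of_eq h, PiQ_of_eq h']
    exact PiE_dnE (lev_mul qv hL Q) h h' (lev_mul qv hL Q') j c y
  · have h' := fun h' => h ((lev_edge_iff qv hL Q Q' _).1 h')
    rw [PiQ, PiQ, dif_neg h, dif_neg h']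
    simp

/-- (SP) on the cube -/
theorem PiQ_upQ (hq : q.Prime) (hL : L' = L * q) (Q Q' : Finset (Fin t)) (a : Fin t)
    (hne : q ≠ ((qv a : Nat.Primes) : ℕ)) (j : Fin 3) (c : Fin 2) (z : JZero (lev L qv Q')) :
    PiQ L' qv Q Q' a j (upQ qv hL Q' c z) = upQ qv hL Q c (PiQ L qv Q Q' a j z) := by
  by_cases h : lev L qv Q' = lev L qv Q * ((qv a : Nat.Primes) : ℕ) * ((qv a : Nat.Primes) : ℕ)
  · have h' := (lev_edge_iff qv hL Q Q' _).2 h
    rw [PiQ_of_eq h, PiQ_of_eq h']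
    exact PiE_upE hq (qv a).2 hne (lev_mul qv hL Q) h h' (lev_mul qv hL Q') j c z
  · have h' := fun h' => h ((lev_edge_iff qv hL Q Q' _).1 h')
    rw [PiQ, PiQ, dif_neg h, dif_neg h']
    simp

/-- (PS) on the cube -/
theorem dnQ_ioQ (hq : q.Prime) (hL : L' = L * q) (Q Q' : Finset (Fin t)) (a : Fin t)
    (hne : q ≠ ((qv a : Nat.Primes) : ℕ)) (j : Fin 3) (c : Fin 2) (w : JZero (lev L' qv Q)) :
    dnQ qv hL Q' c (ioQ L' qv Q Q' a j w) = ioQ L qv Q Q' a j (dnQ qv hL Q c w) := by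
  by_cases h : lev L qv Q' = lev L qv Q * ((qv a : Nat.Primes) : ℕ) * ((qv a : Nat.Primes) : ℕ)
  · have h' := (lev_edge_iff qv hL Q Q' _).2 h
    rw [ioQ_of_eq h, ioQ_of_eq h']
    exact dnE_ioE hq (qv a).2 hne (lev_mul qv hL Q) h h' (lev_mul qv hL Q') j c w
  · have h' := fun h' => h ((lev_edge_iff qv hL Q Q' _).1 h')
    rw [ioQ, ioQ, dif_neg h, dif_neg h']
    simp

theorem upQ_tauQ (hL : L' = L * q) (τ : Fin t → GQ) (Q : Finset (Fin t)) (m : Fin t) (c : Fin 2)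
    (x : JZero (lev L qv Q)) :
    upQ qv hL Q c (tauQ L qv τ Q m x) = tauQ L' qv τ Q m (upQ qv hL Q c x) :=
  upE_smul _ c _ x

theorem dnQ_tauQ (hL : L' = L * q) (τ : Fin t → GQ) (Q : Finset (Fin t)) (m : Fin t) (c : Fin 2)
    (y : JZero (lev L' qv Q)) :
    dnQ qv hL Q c (tauQ L' qv τ Q m y) = tauQ L qv τ Q m (dnQ qv hL Q c y) :=
  dnE_smul _ c _ y

theorem upQ_smul (hL : L' = L * q) (Q : Finset (Fin t)) (c : Fin 2) (σ : GQ)
    (x : JZero (lev L qv Q)) : upQ qv hL Q c (σ • x) = σ • upQ qv hL Q c x := upE_smul _ c σ x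

theorem dnQ_smul (hL : L' = L * q) (Q : Finset (Fin t)) (c : Fin 2) (σ : GQ)
    (y : JZero (lev L' qv Q)) : dnQ qv hL Q c (σ • y) = σ • dnQ qv hL Q c y := dnE_smul _ c σ y

variable {p : ℕ} {S : Set ℕ} {θ : ℕ → ℤ}

theorem upQ_TQ (hL : L' = L * q) (Q : Finset (Fin t)) (b : Fin t)
    (hb : ¬ ((qv b : Nat.Primes) : ℕ) ∣ lev L' qv Q * p) (c : Fin 2)
    (x : JZero (lev L qv Q)) (hx : x ∈ ptors (JZero (lev L qv Q)) p) :
    upQ qv hL Q c (TQ L qv Q b x) = TQ L' qv Q b (upQ qv hL Q c x) :=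
  upE_hecke _ c (qv b) hb x hx

theorem dnQ_TQ (hL : L' = L * q) (Q : Finset (Fin t)) (b : Fin t)
    (hb : ¬ ((qv b : Nat.Primes) : ℕ) ∣ lev L' qv Q * p) (c : Fin 2)
    (y : JZero (lev L' qv Q)) (hy : y ∈ ptors (JZero (lev L' qv Q)) p) :
    dnQ qv hL Q c (TQ L' qv Q b y) = TQ L qv Q b (dnQ qv hL Q c y) :=
  dnE_hecke _ c (qv b) hb y hy

theorem upQ_mem_thetaPart (hL : L' = L * q) (Q : Finset (Fin t))
    (hS : ∀ r : ℕ, r.Prime → r ∉ S → ¬ r ∣ lev L' qv Q * p) (c : Fin 2)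
    {x : JZero (lev L qv Q)} (hx : x ∈ thetaPart (lev L qv Q) p S θ) :
    upQ qv hL Q c x ∈ thetaPart (lev L' qv Q) p S θ := upE_mem_thetaPart _ hS c hx

theorem dnQ_mem_thetaPart (hL : L' = L * q) (Q : Finset (Fin t))
    (hS : ∀ r : ℕ, r.Prime → r ∉ S → ¬ r ∣ lev L' qv Q * p) (c : Fin 2)
    {y : JZero (lev L' qv Q)} (hy : y ∈ thetaPart (lev L' qv Q) p S θ) :
    dnQ qv hL Q c y ∈ thetaPart (lev L qv Q) p S θ := dnE_mem_thetaPart _ hS c hy

/-- `α_q^*`, `β_q^*` respect the multi-new parts. -/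
theorem upQ_mem_newPart (hq : q.Prime) (hL : L' = L * q) (R Q : Finset (Fin t))
    (hne : ∀ a ∈ R, q ≠ ((qv a : Nat.Primes) : ℕ))
    (hS : ∀ r : ℕ, r.Prime → r ∉ S → ¬ r ∣ lev L' qv Q * p) (c : Fin 2)
    {x : JZero (lev L qv Q)}
    (hx : x ∈ newPart (fun Q => thetaPart (lev L qv Q) p S θ) (PiQ L qv) R Q) :
    upQ qv hL Q c x ∈ newPart (fun Q => thetaPart (lev L' qv Q) p S θ) (PiQ L' qv) R Q := by
  rw [mem_newPart] at hx ⊢
  refine ⟨upQ_mem_thetaPart hL Q hS c hx.1, fun a ha haQ i => ?_⟩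
  rw [PiQ_upQ hq hL _ _ a (hne a ha), hx.2 a ha haQ i, map_zero]

/-- `α_{q *}`, `β_{q *}` respect the multi-new parts. -/
theorem dnQ_mem_newPart (hL : L' = L * q) (R Q : Finset (Fin t))
    (hS : ∀ r : ℕ, r.Prime → r ∉ S → ¬ r ∣ lev L' qv Q * p) (c : Fin 2)
    {y : JZero (lev L' qv Q)}
    (hy : y ∈ newPart (fun Q => thetaPart (lev L' qv Q) p S θ) (PiQ L' qv) R Q) :
    dnQ qv hL Q c y ∈ newPart (fun Q => thetaPart (lev L qv Q) p S θ) (PiQ L qv) R Q := by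
  rw [mem_newPart] at hy ⊢
  refine ⟨dnQ_mem_thetaPart hL Q hS c hy.1, fun a ha haQ i => ?_⟩
  rw [PiQ_dnQ hL, hy.2 a ha haQ i, map_zero]

end Cube1

section Cube2

variable {L L' q : ℕ} [NeZero L] [NeZero L'] [NeZero q] {t : ℕ} (qv : Fin t → Nat.Primes)

theorem lev_mul2 (hL : L' = L * q * q) (Q : Finset (Fin t)) :
    lev L' qv Q = lev L qv Q * q * q := by
  subst hL; unfold lev; ring

theorem lev_edge_iff2 (hL : L' = L * q * q) (Q Q' : Finset (Fin t)) (l : ℕ) :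
    lev L' qv Q' = lev L' qv Q * l * l ↔ lev L qv Q' = lev L qv Q * l * l := by
  rw [lev_mul2 qv hL, lev_mul2 qv hL]
  constructor
  · intro h
    refine Nat.eq_of_mul_eq_mul_right (NeZero.pos q) (Nat.eq_of_mul_eq_mul_right (NeZero.pos q) ?_)
    rw [h]; ring
  · intro h
    rw [h]; ring

/-- the three two-step pull-backs at `q` on the cube -/
def up2Q (hL : L' = L * q * q) (Q : Finset (Fin t)) (i : Fin 3) :
    JZero (lev L qv Q) →+ JZero (lev L' qv Q) := ioE (lev_mul2 qv hL Q) i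

/-- the three two-step push-forwards at `q` on the cube -/
def dn2Q (hL : L' = L * q * q) (Q : Finset (Fin t)) (i : Fin 3) :
    JZero (lev L' qv Q) →+ JZero (lev L qv Q) := PiE (lev_mul2 qv hL Q) i

variable {qv}

/-- (PP) on the cube -/
theorem ioQ_up2Q (hL : L' = L * q * q) (Q Q' : Finset (Fin t)) (a : Fin t) (j i : Fin 3)
    (x : JZero (lev L qv Q)) :
    ioQ L' qv Q Q' a j (up2Q qv hL Q i x) = up2Q qv hL Q' i (ioQ L qv Q Q' a j x) := by
  by_cases h : lev L qv Q' = lev L qv Q * ((qv a : Nat.Primes) : ℕ) * ((qv a : Nat.Primes) : ℕ)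
  · have h' := (lev_edge_iff2 qv hL Q Q' _).2 h
    rw [ioQ_of_eq h, ioQ_of_eq h']
    exact ioE_ioE (lev_mul2 qv hL Q) h h' (lev_mul2 qv hL Q') i j x
  · have h' := fun h' => h ((lev_edge_iff2 qv hL Q Q' _).1 h')
    rw [ioQ, ioQ, dif_neg h, dif_neg h']
    simp

/-- (SS) on the cube -/
theorem PiQ_dn2Q (hL : L' = L * q * q) (Q Q' : Finset (Fin t)) (a : Fin t) (j i : Fin 3)
    (y : JZero (lev L' qv Q')) :
    PiQ L qv Q Q' a j (dn2Q qv hL Q' i y) = dn2Q qv hL Q i (PiQ L' qv Q Q' a j y) := by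
  by_cases h : lev L qv Q' = lev L qv Q * ((qv a : Nat.Primes) : ℕ) * ((qv a : Nat.Primes) : ℕ)
  · have h' := (lev_edge_iff2 qv hL Q Q' _).2 h
    rw [PiQ_of_eq h, PiQ_of_eq h']
    exact (PiE_PiE (lev_mul2 qv hL Q) h h' (lev_mul2 qv hL Q') i j y).symm
  · have h' := fun h' => h ((lev_edge_iff2 qv hL Q Q' _).1 h')
    rw [PiQ, PiQ, dif_neg h, dif_neg h']
    simp

/-- (SP) on the cube -/
theorem PiQ_up2Q (hq : q.Prime) (hL : L' = L * q * q) (Q Q' : Finset (Fin t)) (a : Fin t)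
    (hne : q ≠ ((qv a : Nat.Primes) : ℕ)) (j i : Fin 3) (z : JZero (lev L qv Q')) :
    PiQ L' qv Q Q' a j (up2Q qv hL Q' i z) = up2Q qv hL Q i (PiQ L qv Q Q' a j z) := by
  by_cases h : lev L qv Q' = lev L qv Q * ((qv a : Nat.Primes) : ℕ) * ((qv a : Nat.Primes) : ℕ)
  · have h' := (lev_edge_iff2 qv hL Q Q' _).2 h
    rw [PiQ_of_eq h, PiQ_of_eq h']
    exact PiE_ioE (qv a).2 hq (Ne.symm hne) h (lev_mul2 qv hL Q) (lev_mul2 qv hL Q') h' j i z
  · have h' := fun h' => h ((lev_edge_iff2 qv hL Q Q' _).1 h')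
    rw [PiQ, PiQ, dif_neg h, dif_neg h']
    simp

/-- (PS) on the cube -/
theorem dn2Q_ioQ (hq : q.Prime) (hL : L' = L * q * q) (Q Q' : Finset (Fin t)) (a : Fin t)
    (hne : q ≠ ((qv a : Nat.Primes) : ℕ)) (j i : Fin 3) (w : JZero (lev L' qv Q)) :
    dn2Q qv hL Q' i (ioQ L' qv Q Q' a j w) = ioQ L qv Q Q' a j (dn2Q qv hL Q i w) := by
  by_cases h : lev L qv Q' = lev L qv Q * ((qv a : Nat.Primes) : ℕ) * ((qv a : Nat.Primes) : ℕ)
  · have h' := (lev_edge_iff2 qv hL Q Q' _).2 h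
    rw [ioQ_of_eq h, ioQ_of_eq h']
    exact PiE_ioE hq (qv a).2 hne (lev_mul2 qv hL Q) h h' (lev_mul2 qv hL Q') i j w
  · have h' := fun h' => h ((lev_edge_iff2 qv hL Q Q' _).1 h')
    rw [ioQ, ioQ, dif_neg h, dif_neg h']
    simp

theorem up2Q_smul (hL : L' = L * q * q) (Q : Finset (Fin t)) (i : Fin 3) (σ : GQ)
    (x : JZero (lev L qv Q)) : up2Q qv hL Q i (σ • x) = σ • up2Q qv hL Q i x := ioE_smul _ i σ x

theorem dn2Q_smul (hL : L' = L * q * q) (Q : Finset (Fin t)) (i : Fin 3) (σ : GQ)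
    (y : JZero (lev L' qv Q)) : dn2Q qv hL Q i (σ • y) = σ • dn2Q qv hL Q i y := PiE_smul _ i σ y

variable {p : ℕ} {S : Set ℕ} {θ : ℕ → ℤ}

theorem up2Q_TQ (hL : L' = L * q * q) (Q : Finset (Fin t)) (b : Fin t)
    (hb : ¬ ((qv b : Nat.Primes) : ℕ) ∣ lev L' qv Q * p) (i : Fin 3)
    (x : JZero (lev L qv Q)) (hx : x ∈ ptors (JZero (lev L qv Q)) p) :
    up2Q qv hL Q i (TQ L qv Q b x) = TQ L' qv Q b (up2Q qv hL Q i x) :=
  ioE_hecke _ i (qv b) hb x hx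

theorem dn2Q_TQ (hL : L' = L * q * q) (Q : Finset (Fin t)) (b : Fin t)
    (hb : ¬ ((qv b : Nat.Primes) : ℕ) ∣ lev L' qv Q * p) (i : Fin 3)
    (y : JZero (lev L' qv Q)) (hy : y ∈ ptors (JZero (lev L' qv Q)) p) :
    dn2Q qv hL Q i (TQ L' qv Q b y) = TQ L qv Q b (dn2Q qv hL Q i y) :=
  PiE_hecke _ i (qv b) hb y hy

theorem up2Q_mem_thetaPart (hL : L' = L * q * q) (Q : Finset (Fin t))
    (hS : ∀ r : ℕ, r.Prime → r ∉ S → ¬ r ∣ lev L' qv Q * p) (i : Fin 3)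
    {x : JZero (lev L qv Q)} (hx : x ∈ thetaPart (lev L qv Q) p S θ) :
    up2Q qv hL Q i x ∈ thetaPart (lev L' qv Q) p S θ := ioE_mem_thetaPart _ hS i hx

theorem dn2Q_mem_thetaPart (hL : L' = L * q * q) (Q : Finset (Fin t))
    (hS : ∀ r : ℕ, r.Prime → r ∉ S → ¬ r ∣ lev L' qv Q * p) (i : Fin 3)
    {y : JZero (lev L' qv Q)} (hy : y ∈ thetaPart (lev L' qv Q) p S θ) :
    dn2Q qv hL Q i y ∈ thetaPart (lev L qv Q) p S θ := PiE_mem_thetaPart _ hS i hy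

theorem up2Q_mem_newPart (hq : q.Prime) (hL : L' = L * q * q) (R Q : Finset (Fin t))
    (hne : ∀ a ∈ R, q ≠ ((qv a : Nat.Primes) : ℕ))
    (hS : ∀ r : ℕ, r.Prime → r ∉ S → ¬ r ∣ lev L' qv Q * p) (i : Fin 3)
    {x : JZero (lev L qv Q)}
    (hx : x ∈ newPart (fun Q => thetaPart (lev L qv Q) p S θ) (PiQ L qv) R Q) :
    up2Q qv hL Q i x ∈ newPart (fun Q => thetaPart (lev L' qv Q) p S θ) (PiQ L' qv) R Q := by
  rw [mem_newPart] at hx ⊢
  refine ⟨up2Q_mem_thetaPart hL Q hS i hx.1, fun a ha haQ j => ?_⟩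
  rw [PiQ_up2Q hq hL _ _ a (hne a ha), hx.2 a ha haQ j, map_zero]

theorem dn2Q_mem_newPart (hL : L' = L * q * q) (R Q : Finset (Fin t))
    (hS : ∀ r : ℕ, r.Prime → r ∉ S → ¬ r ∣ lev L' qv Q * p) (i : Fin 3)
    {y : JZero (lev L' qv Q)}
    (hy : y ∈ newPart (fun Q => thetaPart (lev L' qv Q) p S θ) (PiQ L' qv) R Q) :
    dn2Q qv hL Q i y ∈ newPart (fun Q => thetaPart (lev L qv Q) p S θ) (PiQ L qv) R Q := by
  rw [mem_newPart] at hy ⊢
  refine ⟨dn2Q_mem_thetaPart hL Q hS i hy.1, fun a ha haQ j => ?_⟩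
  rw [PiQ_dn2Q hL, hy.2 a ha haQ j, map_zero]

end Cube2

end Fermat.Agent.ML.TWFree
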