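import Fermat.Agent.ML.TWFree.KCube
import Fermat.Agent.ML.TWFree.Inst.Main
import Fermat.Agent.ML.TWFree.Inst.QSq
import Fermat.Agent.ML.Ihara.Theta
import Fermat.Agent.ML.Ihara.Tors

/-!
# ML / TWFREE / Inst / KCube : the cube of the family `K(N) = ker Π_q ∩ thetaPart (N q)`

`q` a prime, `q ∤ L`, `L' = L * q`.  The push-forwards at `q` are helper99's `dnE`, `dnQ qv hL Q` (`ML/TWFree/Inst/QSq.lean`).

* `KC.dnE_onto` : **[IH-DUAL]** with a free upper level;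
* `KC.gen_descent_q` : the property "`τ₀`-fixed ⟹ `I`-fixed" descends from the level `N q` to the level `N`;
* `cubeK_of_isCube` : `IsCube` at `L'` and at `L` (ANY `L`, no rigidity, `q = 2`, `q = p` allowed)  ⟹  the `q`-new parts
  `kerSub (thetaPart (lev L' qv Q)) (dnQ qv hL Q)` form a `Cube`;
* `isCubeK_of_tau`, `isCube_of_tau_q` : the same from `MCtx` + `MTW` at the level `L'`, for the generators of inertia chosen at `L'`.
-/

set_option autoImplicit false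
set_option linter.unusedSectionVars false

noncomputable section

open AlgebraicCurve ModularCurve

namespace Fermat.Agent.ML.TWFree

open Fermat.Agent.RIB Fermat.Agent.GAL Fermat.Agent.GAL.PC

local notation "Qbar" => AlgebraicClosure ℚ
local notation "GQ" => (AlgebraicClosure ℚ ≃ₐ[ℚ] AlgebraicClosure ℚ)
local notation "M₂" => Matrix (Fin 2) (Fin 2)

namespace KC

section E

variable {N Nq q : ℕ} [NeZero N] [NeZero Nq] [NeZero q]

/-- **[IH-DUAL]** with a free upper level. -/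
theorem dnE_onto {p : ℕ} {S : Set ℕ} {θ : ℕ → ℤ} (h : Nq = N * q) (hp : p.Prime) (hq : q.Prime)
    (hqN : ¬ q ∣ N) (hAP : NonEisAP p S θ) (hqS : q ∈ S)
    (hS : ∀ r : ℕ, r.Prime → r ∉ S → ¬ r ∣ Nq * p) (j : ℕ) (w : Fin 2 → JZero N)
    (hw : ∀ k, w k ∈ thetaPart N p S θ) (hpw : ∀ k, p ^ j • w k = 0) :
    ∃ x ∈ thetaPart Nq p S θ, p ^ j • x = 0 ∧ ∀ k, dnE h k x = w k := by
  subst h
  obtain ⟨y, hy, hpy, h0, h1⟩ := ihara_dual hp (iharaTors hq hqN) hAP hqS hS j (hw 0) (hw 1)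
    (hpw 0) (hpw 1)
  refine ⟨y, hy, hpy, fun k => ?_⟩
  fin_cases k
  · exact h0
  · exact h1

/-- "`τ₀`-fixed ⟹ `I`-fixed" descends along `α_q^*`. -/
theorem gen_descent_q {p : ℕ} {S : Set ℕ} {θ : ℕ → ℤ} (h : Nq = N * q) (hp : p.Prime)
    (hq : q.Prime) (hqN : ¬ q ∣ N) (hAP : NonEisAP p S θ) (hqS : q ∈ S)
    (hS : ∀ r : ℕ, r.Prime → r ∉ S → ¬ r ∣ Nq * p) (I : Subgroup GQ) (τ₀ : GQ) (m : ℕ)
    (H : ∀ x ∈ thetaPart Nq p S θ, m • x = 0 → τ₀ • x = x → ∀ σ ∈ I, σ • x = x) :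
    ∀ x ∈ thetaPart N p S θ, m • x = 0 → τ₀ • x = x → ∀ σ ∈ I, σ • x = x := by
  subst h
  intro x hx hm h0 σ hσ
  have h1 := H (pullA N q x) (pullA_mem_thetaPart hS hx) (by rw [← map_nsmul, hm, map_zero])
    (by rw [← pullA_smul, h0]) σ hσ
  rw [← pullA_smul] at h1
  have h2 : pullA N q (σ • x - x) + pullB N q 0 = 0 := by
    rw [map_sub, h1, sub_self, map_zero, add_zero]
  exact sub_eq_zero.1 (ihara_theta hp (iharaTors hq hqN) hAP hqS
    (AddSubgroup.sub_mem _ (smul_mem_thetaPart σ hx) hx) (AddSubgroup.zero_mem _) h2).1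

end E

end KC

section Gen

variable {p : ℕ} {S : Set ℕ} {θ : ℕ → ℤ} {L L' q t : ℕ} [NeZero L] [NeZero L'] [NeZero q]
  {qv : Fin t → Nat.Primes} {τ : Fin t → GQ}

/-- **the `q`-new parts form a cube** (general form: ANY `L`, `q ∤ lev L qv Q`). -/
theorem cubeK_of_isCube (hp : p.Prime) (hq : q.Prime) (hL : L' = L * q)
    (hqN : ∀ Q : Finset (Fin t), ¬ q ∣ lev L qv Q)
    (hne : ∀ i : Fin t, q ≠ ((qv i : Nat.Primes) : ℕ))
    (hAP : NonEisAP p S θ) (hqS : q ∈ S)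
    (hS : ∀ Q : Finset (Fin t), ∀ r : ℕ, r.Prime → r ∉ S → ¬ r ∣ lev L' qv Q * p)
    (hT : ∀ (Q : Finset (Fin t)) (l : Fin t), l ∉ Q →
      ¬ ((qv l : Nat.Primes) : ℕ) ∣ lev L' qv Q * p)
    (C' : IsCube p S θ L' qv τ) (C : IsCube p S θ L qv τ) :
    Cube p (Finset.univ : Finset (Fin t)) (fun i => ((qv i : Nat.Primes) : ℕ)) (nuP p qv)
      (fun Q => JZero (lev L' qv Q))
      (fun Q => kerSub (thetaPart (lev L' qv Q) p S θ) (dnQ qv hL Q))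
      (TQ L' qv) (ioQ L' qv) (PiQ L' qv) (tauQ L' qv τ) := by
  refine KC.cube_ker C' C (dnQ qv hL) ?_ ?_ ?_ ?_ ?_ ?_
  · intro Q _ k x hx
    exact dnQ_mem_thetaPart hL Q (hS Q) k hx
  · rintro Q Q' l - hl - k x hx
    exact dnQ_TQ hL Q l (hT Q l hl) k x hx.1
  · rintro Q Q' l - - - k i x -
    exact dnQ_ioQ hq hL Q Q' l (hne l) i k x
  · rintro Q Q' l - - - k i y -
    exact (PiQ_dnQ hL Q Q' l i k y).symm
  · rintro Q Q' l - - - k y -
    exact dnQ_tauQ hL τ Q' l k y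
  · intro Q _ w hw hpw
    obtain ⟨x, hx, hpx, e⟩ := KC.dnE_onto (lev_mul qv hL Q) hp hq (hqN Q) hAP hqS (hS Q) 1 w hw
      (fun k => by rw [pow_one]; exact hpw k)
    exact ⟨x, hx, by rwa [pow_one] at hpx, e⟩

end Gen

section Main

variable {p : ℕ} [Fact p.Prime] {T : Finset ℕ} {θ : ℕ → ℤ} {rbar0 : GQ →* M₂ (ZMod p)}
  {L L' q t n : ℕ} [NeZero L] [NeZero L'] [NeZero q] {qv : Fin t → Nat.Primes}

theorem KC.q_memT (TC : MTW p T θ L' t n qv) (hq : q.Prime) (hL : L' = L * q) : q ∈ T :=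
  TC.lev q hq ((hL ▸ Dvd.intro_left L rfl : q ∣ L').mul_right p)

theorem KC.q_ne (TC : MTW p T θ L' t n qv) (hq : q.Prime) (hL : L' = L * q) (i : Fin t) :
    q ≠ ((qv i : Nat.Primes) : ℕ) := fun h => TC.notT i (h ▸ KC.q_memT TC hq hL)

theorem KC.not_dvd_lev_q (TC : MTW p T θ L' t n qv) (hq : q.Prime) (hL : L' = L * q)
    (hqL : ¬ q ∣ L) (Q : Finset (Fin t)) : ¬ q ∣ lev L qv Q := by
  intro hd
  rcases dvd_lev hq hd with h | ⟨i, _, h⟩
  · exact hqL h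
  · exact KC.q_ne TC hq hL i h

theorem KC.q_mem (TC : MTW p T θ L' t n qv) (hq : q.Prime) (hL : L' = L * q) :
    q ∈ (↑(cutS T qv) : Set ℕ) :=
  Finset.mem_coe.2 (subset_cutS T qv (KC.q_memT TC hq hL))

theorem KC.hS_lev (TC : MTW p T θ L' t n qv) (Q : Finset (Fin t)) :
    ∀ r : ℕ, r.Prime → r ∉ (↑(cutS T qv) : Set ℕ) → ¬ r ∣ lev L' qv Q * p :=
  fun _ hr hrS hd => hrS (Finset.mem_coe.2 (TC.mem_cutS_lev Q hr hd))

/-- the generators of inertia chosen at the level `L' = L q` work at the level `L`. -/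
theorem KC.hgen_q (EC : MCtx p T θ rbar0) (TC : MTW p T θ L' t n qv) (hq : q.Prime)
    (hL : L' = L * q) (hqL : ¬ q ∣ L) (A : Fin t → ValuationSubring Qbar) (τ : Fin t → GQ)
    (hgen : ∀ (i : Fin t) (Q : Finset (Fin t)),
      ∀ x ∈ thetaPart (lev L' qv Q) p (↑(cutS T qv) : Set ℕ) θ,
        p ^ (nuP p qv i + 1) • x = 0 → τ i • x = x →
        ∀ σ ∈ (A i).inertiaSubgroupIn ℚ, σ • x = x) :
    ∀ (i : Fin t) (Q : Finset (Fin t)),
      ∀ x ∈ thetaPart (lev L qv Q) p (↑(cutS T qv) : Set ℕ) θ,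
        p ^ (nuP p qv i + 1) • x = 0 → τ i • x = x →
        ∀ σ ∈ (A i).inertiaSubgroupIn ℚ, σ • x = x := fun i Q =>
  KC.gen_descent_q (lev_mul qv hL Q) Fact.out hq (KC.not_dvd_lev_q TC hq hL hqL Q)
    (EC.nonEis (cutS T qv)) (KC.q_mem TC hq hL) (KC.hS_lev TC Q) _ (τ i) _ (hgen i Q)

/-- `IsCube` at the level `L` for the generators of inertia chosen at the level `L' = L q`. -/
theorem isCube_of_tau_q (EC : MCtx p T θ rbar0) (TC : MTW p T θ L' t n qv) (h4 : 4 ∣ L)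
    (hq : q.Prime) (hL : L' = L * q) (hqL : ¬ q ∣ L) (A : Fin t → ValuationSubring Qbar)
    (τ : Fin t → GQ) (hA : ∀ i, (A i).LiesOverPrime ((qv i : Nat.Primes) : ℕ))
    (hτ : ∀ i, τ i ∈ (A i).inertiaSubgroupIn ℚ)
    (hgen : ∀ (i : Fin t) (Q : Finset (Fin t)),
      ∀ x ∈ thetaPart (lev L' qv Q) p (↑(cutS T qv) : Set ℕ) θ,
        p ^ (nuP p qv i + 1) • x = 0 → τ i • x = x →
        ∀ σ ∈ (A i).inertiaSubgroupIn ℚ, σ • x = x) :
    IsCube p (↑(cutS T qv) : Set ℕ) θ L qv τ :=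
  isCube_of_tau EC (TC.of_dvd (hL ▸ Dvd.intro _ rfl) h4) A τ hA hτ
    (KC.hgen_q EC TC hq hL hqL A τ hgen)

/-- **the `q`-new parts form a cube** (rigid levels, from `MCtx` + `MTW`). -/
theorem isCubeK_of_tau (EC : MCtx p T θ rbar0) (TC : MTW p T θ L' t n qv) (h4 : 4 ∣ L)
    (hq : q.Prime) (hL : L' = L * q) (hqL : ¬ q ∣ L) (A : Fin t → ValuationSubring Qbar)
    (τ : Fin t → GQ) (hA : ∀ i, (A i).LiesOverPrime ((qv i : Nat.Primes) : ℕ))
    (hτ : ∀ i, τ i ∈ (A i).inertiaSubgroupIn ℚ)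
    (hgen : ∀ (i : Fin t) (Q : Finset (Fin t)),
      ∀ x ∈ thetaPart (lev L' qv Q) p (↑(cutS T qv) : Set ℕ) θ,
        p ^ (nuP p qv i + 1) • x = 0 → τ i • x = x →
        ∀ σ ∈ (A i).inertiaSubgroupIn ℚ, σ • x = x) :
    Cube p (Finset.univ : Finset (Fin t)) (fun i => ((qv i : Nat.Primes) : ℕ)) (nuP p qv)
      (fun Q => JZero (lev L' qv Q))
      (fun Q => kerSub (thetaPart (lev L' qv Q) p (↑(cutS T qv) : Set ℕ) θ) (dnQ qv hL Q))
      (TQ L' qv) (ioQ L' qv) (PiQ L' qv) (tauQ L' qv τ) :=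
  cubeK_of_isCube Fact.out hq hL (KC.not_dvd_lev_q TC hq hL hqL) (KC.q_ne TC hq hL)
    (EC.nonEis (cutS T qv)) (KC.q_mem TC hq hL) (KC.hS_lev TC)
    (fun _ _ hl => TC.not_dvd_lev_mul hl) (isCube_of_tau EC TC A τ hA hτ hgen)
    (isCube_of_tau_q EC TC h4 hq hL hqL A τ hA hτ hgen)

end Main

end Fermat.Agent.ML.TWFree
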