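import Fermat.Agent.ML.TWFree.Inst.Main

/-!
# ML / TWFREE / Inst / NR : `IsCube` at NON-RIGID base levels, from (CTRL) on the edges

`MTW0` = `MTW` without the field `rigid`;  `CtrlAt p S θ N l` = the two conclusions of `Low.ctrl_step` on the edge
`N ⟶ N l l`.  Rigidity of the level enters `IsCube` only through (CTRL):

* `edge_E0`  : [W2] from `CtrlAt`;
* `exists_tau_of_ctrl` : [W3] from `CtrlAt`;  `gen_descent_of_inj` : descent of `hgen` along any injective equivariant map;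
* `isCube_of_tau0`, `exists_isCube_of_ctrl` : `IsCube`.
-/

set_option autoImplicit false

noncomputable section

open AlgebraicCurve ModularCurve

namespace Fermat.Agent.ML.TWFree

open Fermat.Agent.RIB Fermat.Agent.GAL Fermat.Agent.GAL.PC

local notation "Qbar" => AlgebraicClosure ℚ
local notation "GQ" => (AlgebraicClosure ℚ ≃ₐ[ℚ] AlgebraicClosure ℚ)
local notation "M₂" => Matrix (Fin 2) (Fin 2)

/-- the Taylor–Wiles primes relative to a base level `L₀` which need not be rigid. -/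
structure MTW0 (p : ℕ) (T : Finset ℕ) (θ : ℕ → ℤ) (L₀ t n : ℕ) (qv : Fin t → Nat.Primes) :
    Prop where
  inj : Function.Injective qv
  notT : ∀ i, ((qv i : Nat.Primes) : ℕ) ∉ T
  pow : ∀ i, p ^ (n + 1) ∣ ((qv i : Nat.Primes) : ℕ) - 1
  disc : ∀ i, IsCoprime (p : ℤ) (θ ((qv i : Nat.Primes) : ℕ) ^ 2 - 4)
  lev : ∀ r : ℕ, r.Prime → r ∣ L₀ * p → r ∈ T

theorem _root_.Fermat.Agent.ML.MTW.toMTW0 {p : ℕ} {T : Finset ℕ} {θ : ℕ → ℤ} {L₀ t n : ℕ}
    {qv : Fin t → Nat.Primes} (h : MTW p T θ L₀ t n qv) : MTW0 p T θ L₀ t n qv where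
  inj := h.inj
  notT := h.notT
  pow := h.pow
  disc := h.disc
  lev := h.lev

theorem MTW0.toMTW {p : ℕ} {T : Finset ℕ} {θ : ℕ → ℤ} {L₀ t n : ℕ}
    {qv : Fin t → Nat.Primes} (h : MTW0 p T θ L₀ t n qv) (h4 : 4 ∣ L₀) :
    MTW p T θ L₀ t n qv where
  inj := h.inj
  notT := h.notT
  pow := h.pow
  disc := h.disc
  lev := h.lev
  rigid := h4

/-- changing the base level inside the primes of `T`. -/
theorem MTW0.of_lev {p : ℕ} {T : Finset ℕ} {θ : ℕ → ℤ} {L₀ L₁ t n : ℕ}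
    {qv : Fin t → Nat.Primes} (h : MTW0 p T θ L₀ t n qv)
    (hlev : ∀ r : ℕ, r.Prime → r ∣ L₁ * p → r ∈ T) : MTW0 p T θ L₁ t n qv where
  inj := h.inj
  notT := h.notT
  pow := h.pow
  disc := h.disc
  lev := hlev

theorem MTW0.of_dvd {p : ℕ} {T : Finset ℕ} {θ : ℕ → ℤ} {L₀ L₁ t n : ℕ}
    {qv : Fin t → Nat.Primes} (h : MTW0 p T θ L₀ t n qv) (hd : L₁ ∣ L₀) :
    MTW0 p T θ L₁ t n qv :=
  h.of_lev fun r hr hrd => h.lev r hr (hrd.trans (Nat.mul_dvd_mul_right hd p))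

/-- **(CTRL)** on the edge `N ⟶ N l l` (the two conclusions of `Low.ctrl_step`). -/
structure CtrlAt (p : ℕ) (S : Set ℕ) (θ : ℕ → ℤ) (N l : ℕ) [NeZero N] [NeZero l] : Prop where
  surj : ∀ A : ValuationSubring Qbar, A.LiesOverPrime l →
    ∀ x ∈ thetaPart (N * l * l) p S θ, (∀ τ ∈ A.inertiaSubgroupIn ℚ, τ • x = x) →
      ∃ v : Fin 3 → JZero N, (∀ i, v i ∈ thetaPart N p S θ) ∧ iota N l v = x
  inj : ∀ v : Fin 3 → JZero N, (∀ i, v i ∈ thetaPart N p S θ) → iota N l v = 0 → v = 0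

section Arith

variable {p : ℕ} {T : Finset ℕ} {θ : ℕ → ℤ} {L₀ t n : ℕ} {qv : Fin t → Nat.Primes}

theorem MTW0.mem_cutS_lev (h : MTW0 p T θ L₀ t n qv) (Q : Finset (Fin t))
    {r : ℕ} (hr : r.Prime) (hd : r ∣ TWFree.lev L₀ qv Q * p) : r ∈ cutS T qv := by
  rcases (Nat.Prime.dvd_mul hr).1 hd with h1 | h1
  · rcases dvd_lev hr h1 with h2 | ⟨i, _, rfl⟩
    · exact subset_cutS T qv (h.lev r hr (h2.mul_right p))
    · exact mem_cutS_qv T qv i
  · exact subset_cutS T qv (h.lev r hr (h1.mul_left L₀))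

theorem MTW0.not_dvd_lev_mul (h : MTW0 p T θ L₀ t n qv) {Q : Finset (Fin t)} {i : Fin t}
    (hi : i ∉ Q) : ¬ ((qv i : Nat.Primes) : ℕ) ∣ TWFree.lev L₀ qv Q * p := by
  intro hd
  rcases (Nat.Prime.dvd_mul (qv i).2).1 hd with h1 | h1
  · rcases dvd_lev (qv i).2 h1 with h2 | ⟨j, hj, h2⟩
    · exact h.notT i (h.lev _ (qv i).2 (h2.mul_right p))
    · have : i = j := h.inj (Subtype.ext h2)
      exact hi (this ▸ hj)
  · exact h.notT i (h.lev _ (qv i).2 (h1.mul_left L₀))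

theorem MTW0.not_dvd_lev (h : MTW0 p T θ L₀ t n qv) {Q : Finset (Fin t)} {i : Fin t}
    (hi : i ∉ Q) : ¬ ((qv i : Nat.Primes) : ℕ) ∣ TWFree.lev L₀ qv Q :=
  fun hd => h.not_dvd_lev_mul hi (hd.mul_right p)

theorem MTW0.le_nuP [Fact p.Prime] (h : MTW0 p T θ L₀ t n qv) (i : Fin t) :
    n + 1 ≤ nuP p qv i := by
  have h1 : ((qv i : Nat.Primes) : ℕ) - 1 ≠ 0 := by
    have := (qv i).2.two_le
    omega
  exact (padicValNat_dvd_iff_le h1).1 (h.pow i)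

theorem MTW0.hS_edge (h : MTW0 p T θ L₀ t n qv) {Q : Finset (Fin t)} {i : Fin t} (hi : i ∉ Q) :
    ∀ r : ℕ, r.Prime →
      r ∣ TWFree.lev L₀ qv Q * ((qv i : Nat.Primes) : ℕ) * ((qv i : Nat.Primes) : ℕ) * p →
      r ∈ cutS T qv := fun r hr hd => by
  rw [← lev_insert L₀ qv hi] at hd
  exact h.mem_cutS_lev _ hr hd

end Arith

variable {p : ℕ} [Fact p.Prime] {T : Finset ℕ} {θ : ℕ → ℤ} {rbar0 : GQ →* M₂ (ZMod p)}

/-- (CTRL) at the rigid levels. -/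
theorem ctrlAt_of_mstep {S : Finset ℕ} {L l ν : ℕ} [NeZero L] [NeZero l]
    (EC : MCtx p T θ rbar0) (SC : MStep p T θ S L l ν) : CtrlAt p (↑S : Set ℕ) θ L l where
  surj := fun _ hA => Low.ctrl_surj EC SC hA
  inj := Low.ctrl_inj EC SC

section Edge

variable {S : Finset ℕ} {L l ν : ℕ} [NeZero L] [NeZero l]

/-- the datum at the literal level `L * l * l`, from (CTRL). -/
theorem edge_rfl0 (EC : MCtx p T θ rbar0) (hl : l.Prime) (hlT : l ∉ T) (hTS : T ⊆ S)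
    (hlL : ¬ l ∣ L) (hS : ∀ r : ℕ, r.Prime → r ∣ L * l * l * p → r ∈ S) (hν : 1 ≤ ν)
    (hdvd : p ^ ν ∣ l - 1) (hex : ¬ p ^ (ν + 1) ∣ l - 1)
    (disc : IsCoprime (p : ℤ) (θ l ^ 2 - 4)) (hc : CtrlAt p (↑S : Set ℕ) θ L l)
    {A : ValuationSubring Qbar} (hA : A.LiesOverPrime l) (τ₀ : GQ)
    (hτ₀ : τ₀ ∈ A.inertiaSubgroupIn ℚ)
    (hgen : ∀ x ∈ thetaPart (L * l * l) p (↑S : Set ℕ) θ, p ^ (ν + 1) • x = 0 → τ₀ • x = x →
      ∀ τ ∈ A.inertiaSubgroupIn ℚ, τ • x = x) :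
    FHyp p l ν (thetaPart L p (↑S : Set ℕ) θ) (thetaPart (L * l * l) p (↑S : Set ℕ) θ)
      (heckeOperatorBar L ⟨l, hl⟩).toAddMonoidHom (iot L l) (Pii L l)
      (DistribSMul.toAddMonoidHom (JZero (L * l * l)) τ₀) := by
  have hp : p.Prime := Fact.out
  have hS' : ∀ r : ℕ, r.Prime → r ∉ (↑S : Set ℕ) → ¬ r ∣ L * l * l * p :=
    fun r hr hrS hd => hrS (Finset.mem_coe.2 (hS r hr hd))
  have hio : ∀ i, ∀ v ∈ thetaPart L p (↑S : Set ℕ) θ,
      iot L l i v ∈ thetaPart (L * l * l) p (↑S : Set ℕ) θ :=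
    fun i v hv => iot_mem_thetaPart hS' i hv
  have hPi : ∀ i, ∀ x ∈ thetaPart (L * l * l) p (↑S : Set ℕ) θ,
      Pii L l i x ∈ thetaPart L p (↑S : Set ℕ) θ :=
    fun i v hv => Pii_mem_thetaPart hS' i hv
  have hT : ∀ v ∈ thetaPart L p (↑S : Set ℕ) θ,
      heckeOperatorBar L ⟨l, hl⟩ v ∈ thetaPart L p (↑S : Set ℕ) θ :=
    fun v hv => hecke_mem_thetaPart _ hv
  have hτX : ∀ x ∈ thetaPart (L * l * l) p (↑S : Set ℕ) θ,
      τ₀ • x ∈ thetaPart (L * l * l) p (↑S : Set ℕ) θ :=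
    fun x hx => smul_mem_thetaPart τ₀ hx
  have hinj := hc.inj
  have H := hyp_of_sub (S := (↑S : Set ℕ)) (θ := θ) hp EC.hp2 hl hlL hν hdvd hex hA
    (thetaPart L p (↑S : Set ℕ) θ) (thetaPart (L * l * l) p (↑S : Set ℕ) θ) le_rfl le_rfl
    hio hPi hT (fun v hv _ => hv)
    (thetaPart_divisible L hp.pos _ θ) (thetaPart_divisible (L * l * l) hp.pos _ θ)
    (fun v hv => WA.exists_Pii_eq_one hp hS'
      (fun v hv _ h0 i => congrFun (hinj v hv h0) i) v (fun i => (hv i).1) (fun i => (hv i).2))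
    (hc.surj A hA)
    (fun v hv h0 i => congrFun (hinj v (fun i => (hv i).1) h0) i)
    (Low.rhoOrd EC S hTS (L * l * l) hS hl hlT hν hdvd hex disc hA)
    (Low.unit_step' EC hl hlT hTS hlL hS hν hdvd disc) τ₀ hτ₀ hτX hgen
  refine FHyp.of_hyp EC.hp2 hex hT hio hPi hτX H ?_
  intro x hx hpx hfix
  obtain ⟨v, hv, e⟩ := hc.surj A hA x hx (hgen x hx (by
    rw [pow_succ, mul_smul, hpx, smul_zero]) hfix)
  exact ⟨v, hv, by rw [← e, iota_apply']⟩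

/-- **[W2]** from (CTRL), with a free upper level. -/
theorem edge_E0 {N' : ℕ} [NeZero N'] (EC : MCtx p T θ rbar0) (hl : l.Prime) (hlT : l ∉ T)
    (hTS : T ⊆ S) (hlL : ¬ l ∣ L) (hS : ∀ r : ℕ, r.Prime → r ∣ L * l * l * p → r ∈ S)
    (hν : 1 ≤ ν) (hdvd : p ^ ν ∣ l - 1) (hex : ¬ p ^ (ν + 1) ∣ l - 1)
    (disc : IsCoprime (p : ℤ) (θ l ^ 2 - 4)) (hc : CtrlAt p (↑S : Set ℕ) θ L l)
    (h : N' = L * l * l)
    {A : ValuationSubring Qbar} (hA : A.LiesOverPrime l) (τ₀ : GQ)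
    (hτ₀ : τ₀ ∈ A.inertiaSubgroupIn ℚ)
    (hgen : ∀ x ∈ thetaPart N' p (↑S : Set ℕ) θ, p ^ (ν + 1) • x = 0 → τ₀ • x = x →
      ∀ τ ∈ A.inertiaSubgroupIn ℚ, τ • x = x) :
    FHyp p l ν (thetaPart L p (↑S : Set ℕ) θ) (thetaPart N' p (↑S : Set ℕ) θ)
      (heckeOperatorBar L ⟨l, hl⟩).toAddMonoidHom (ioE h) (PiE h)
      (DistribSMul.toAddMonoidHom (JZero N') τ₀) := by
  subst h
  exact edge_rfl0 EC hl hlT hTS hlL hS hν hdvd hex disc hc hA τ₀ hτ₀ hgen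

end Edge

/-- the property "`τ₀`-fixed ⟹ `I`-fixed" on the `m`-torsion of the `θ`-part descends along ANY equivariant map which respects
the `θ`-parts and is injective on them. -/
theorem gen_descent_of_inj {S : Set ℕ} {N N' : ℕ} [NeZero N] [NeZero N']
    (u : JZero N →+ JZero N') (hu : ∀ (σ : GQ) x, u (σ • x) = σ • u x)
    (hmem : ∀ x ∈ thetaPart N p S θ, u x ∈ thetaPart N' p S θ)
    (hinj : ∀ x ∈ thetaPart N p S θ, u x = 0 → x = 0)
    (I : Subgroup GQ) (τ₀ : GQ) (m : ℕ)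
    (H : ∀ x ∈ thetaPart N' p S θ, m • x = 0 → τ₀ • x = x → ∀ σ ∈ I, σ • x = x) :
    ∀ x ∈ thetaPart N p S θ, m • x = 0 → τ₀ • x = x → ∀ σ ∈ I, σ • x = x := by
  intro x hx hm h0 σ hσ
  have h1 := H (u x) (hmem x hx) (by rw [← map_nsmul, hm, map_zero]) (by rw [← hu, h0]) σ hσ
  rw [← hu] at h1
  exact sub_eq_zero.1 (hinj _ (AddSubgroup.sub_mem _ (smul_mem_thetaPart σ hx) hx)
    (by rw [map_sub, h1, sub_self]))

section Cube

variable {L₀ t n : ℕ} [NeZero L₀] {qv : Fin t → Nat.Primes}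

/-- (CTRL) on all the edges of the cube. -/
def CtrlCube (p : ℕ) (T : Finset ℕ) (θ : ℕ → ℤ) (L₀ : ℕ) [NeZero L₀] {t : ℕ}
    (qv : Fin t → Nat.Primes) : Prop :=
  ∀ (Q : Finset (Fin t)) (i : Fin t), i ∉ Q →
    CtrlAt p (↑(cutS T qv) : Set ℕ) θ (lev L₀ qv Q) ((qv i : Nat.Primes) : ℕ)

theorem ctrlCube_of_mtw (EC : MCtx p T θ rbar0) (TC : MTW p T θ L₀ t n qv) :
    CtrlCube p T θ L₀ qv := fun _ _ hi => ctrlAt_of_mstep EC (TC.mstep_lev hi)

/-- one step of the descent of `hgen` in the cube. -/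
theorem gen_descent0 (TC : MTW0 p T θ L₀ t n qv) (hc : CtrlCube p T θ L₀ qv)
    {Q : Finset (Fin t)} {j : Fin t} (hj : j ∉ Q) (I : Subgroup GQ) (τ₀ : GQ) (m : ℕ)
    (H : ∀ x ∈ thetaPart (lev L₀ qv (insert j Q)) p (↑(cutS T qv) : Set ℕ) θ, m • x = 0 →
      τ₀ • x = x → ∀ σ ∈ I, σ • x = x) :
    ∀ x ∈ thetaPart (lev L₀ qv Q) p (↑(cutS T qv) : Set ℕ) θ, m • x = 0 → τ₀ • x = x →
      ∀ σ ∈ I, σ • x = x := by
  have hS' : ∀ r : ℕ, r.Prime → r ∉ (↑(cutS T qv) : Set ℕ) →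
      ¬ r ∣ lev L₀ qv Q * ((qv j : Nat.Primes) : ℕ) * ((qv j : Nat.Primes) : ℕ) * p :=
    fun r hr hrS hd => hrS (Finset.mem_coe.2 (TC.hS_edge hj r hr hd))
  refine gen_descent_of_inj (ioE (lev_insert L₀ qv hj) 0) (ioE_smul _ 0) ?_ ?_ I τ₀ m H
  · intro x hx
    rw [ioE_apply, castJ_mem_thetaPart]
    exact iot_mem_thetaPart hS' 0 hx
  · intro x hx h0
    rw [ioE_apply] at h0
    have h2 : iot (lev L₀ qv Q) ((qv j : Nat.Primes) : ℕ) 0 x = 0 := by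
      have := congrArg (castJ (lev_insert L₀ qv hj)) h0
      rwa [castJ_castJ, map_zero] at this
    have h3 := (hc Q j hj).inj (fun i => if i = 0 then x else 0)
      (fun i => by
        by_cases hi : i = 0
        · simp only [hi, if_true]; exact hx
        · simp only [hi, if_false]; exact AddSubgroup.zero_mem _)
      (by rw [iota_apply']; simp [h2])
    have h4 := congrFun h3 0
    simpa using h4

/-- descent from `R ∪ Q` to `Q`. -/
theorem gen_descent_union0 (TC : MTW0 p T θ L₀ t n qv) (hc : CtrlCube p T θ L₀ qv)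
    (I : Subgroup GQ) (τ₀ : GQ) (m : ℕ) (R : Finset (Fin t)) :
    ∀ Q : Finset (Fin t), Disjoint R Q →
    (∀ x ∈ thetaPart (lev L₀ qv (R ∪ Q)) p (↑(cutS T qv) : Set ℕ) θ, m • x = 0 → τ₀ • x = x →
      ∀ σ ∈ I, σ • x = x) →
    ∀ x ∈ thetaPart (lev L₀ qv Q) p (↑(cutS T qv) : Set ℕ) θ, m • x = 0 → τ₀ • x = x →
      ∀ σ ∈ I, σ • x = x := by
  classical
  induction R using Finset.induction_on with
  | empty =>
    intro Q _ H
    rwa [Finset.empty_union] at H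
  | insert j R hj ih =>
    intro Q hd H
    rw [Finset.disjoint_insert_left] at hd
    refine ih Q hd.2 ?_
    have hj' : j ∉ R ∪ Q := fun h => (Finset.mem_union.1 h).elim hj hd.1
    rw [Finset.insert_union] at H
    exact gen_descent0 TC hc hj' I τ₀ m H

/-- `hgen` at the top of the cube gives `hgen` at all the vertices. -/
theorem gen_of_top (TC : MTW0 p T θ L₀ t n qv) (hc : CtrlCube p T θ L₀ qv)
    (I : Subgroup GQ) (τ₀ : GQ) (m : ℕ)
    (H : ∀ x ∈ thetaPart (lev L₀ qv Finset.univ) p (↑(cutS T qv) : Set ℕ) θ, m • x = 0 →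
      τ₀ • x = x → ∀ σ ∈ I, σ • x = x) (Q : Finset (Fin t)) :
    ∀ x ∈ thetaPart (lev L₀ qv Q) p (↑(cutS T qv) : Set ℕ) θ, m • x = 0 → τ₀ • x = x →
      ∀ σ ∈ I, σ • x = x := by
  classical
  refine gen_descent_union0 TC hc I τ₀ m (Finset.univ \ Q) Q Finset.sdiff_disjoint ?_
  rw [Finset.sdiff_union_of_subset (Finset.subset_univ Q)]
  exact H

/-- **[W3]** from (CTRL). -/
theorem exists_tau_of_ctrl (EC : MCtx p T θ rbar0) (TC : MTW0 p T θ L₀ t n qv)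
    (hc : CtrlCube p T θ L₀ qv) :
    ∃ (A : Fin t → ValuationSubring Qbar) (τ : Fin t → GQ),
      (∀ i, (A i).LiesOverPrime ((qv i : Nat.Primes) : ℕ)) ∧
      (∀ i, τ i ∈ (A i).inertiaSubgroupIn ℚ) ∧
      ∀ (i : Fin t) (Q : Finset (Fin t)),
        ∀ x ∈ thetaPart (lev L₀ qv Q) p (↑(cutS T qv) : Set ℕ) θ,
          p ^ (nuP p qv i + 1) • x = 0 → τ i • x = x →
          ∀ σ ∈ (A i).inertiaSubgroupIn ℚ, σ • x = x := by
  classical
  have hp : p.Prime := Fact.out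
  have key : ∀ i : Fin t, ∃ (A : ValuationSubring Qbar) (τ : GQ),
      A.LiesOverPrime ((qv i : Nat.Primes) : ℕ) ∧ τ ∈ A.inertiaSubgroupIn ℚ ∧
      ∀ Q : Finset (Fin t), ∀ x ∈ thetaPart (lev L₀ qv Q) p (↑(cutS T qv) : Set ℕ) θ,
          p ^ (nuP p qv i + 1) • x = 0 → τ • x = x →
          ∀ σ ∈ A.inertiaSubgroupIn ℚ, σ • x = x := by
    intro i
    obtain ⟨A, hA⟩ := S54.exists_liesOverPrime (qv i).2
    have hpl : p ≠ ((qv i : Nat.Primes) : ℕ) := fun h => TC.notT i (h ▸ EC.p_mem)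
    have hrho := Low.rhoOrd EC (cutS T qv) (subset_cutS T qv) (lev L₀ qv Finset.univ)
      (fun r hr hd => TC.mem_cutS_lev _ hr hd) (qv i).2 (TC.notT i)
      (le_trans (Nat.le_add_left 1 n) (TC.le_nuP i)) (Tau.pow_nuP_dvd qv i)
      (Tau.not_pow_nuP_succ_dvd qv i) (TC.disc i) hA
    obtain ⟨τ₀, hτ₀, hgen⟩ := exists_tau0 (qv i).2 hA
      (thetaPart (lev L₀ qv Finset.univ) p (↑(cutS T qv) : Set ℕ) θ ⊓
        (nsmulAddMonoidHom (p ^ (nuP p qv i + 1))).ker)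
      (fun τ _ x hx => ⟨smul_mem_thetaPart τ hx.1, by
        have h2 : p ^ (nuP p qv i + 1) • x = 0 := hx.2
        show p ^ (nuP p qv i + 1) • (τ • x) = 0
        have h3 := (DistribSMul.toAddMonoidHom (JZero (lev L₀ qv Finset.univ)) τ).map_nsmul
          (p ^ (nuP p qv i + 1)) x
        rw [h2, map_zero] at h3
        exact h3.symm⟩)
      (p ^ (nuP p qv i + 1)) (pow_ne_zero _ hp.ne_zero) (fun x hx => hx.2) (p ^ nuP p qv i)
      (Nat.Coprime.pow_left _ ((Nat.coprime_primes hp (qv i).2).2 hpl))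
      (fun τ hτ x hx => hrho τ hτ x hx.1)
    exact ⟨A, τ₀, hA, hτ₀, gen_of_top TC hc (A.inertiaSubgroupIn ℚ) τ₀ _
      (fun x hx hm h0 => hgen x ⟨hx, hm⟩ h0)⟩
  choose A τ h1 h2 h3 using key
  exact ⟨A, τ, h1, h2, h3⟩

/-- (TP) without rigidity -/
theorem PiQ_TQ0 (h : MTW0 p T θ L₀ t n qv) (Q Qa : Finset (Fin t)) (a b : Fin t) (hb : b ∉ Qa)
    (i : Fin 3) (x : JZero (lev L₀ qv Qa)) (hx : x ∈ ptors (JZero (lev L₀ qv Qa)) p) :
    PiQ L₀ qv Q Qa a i (TQ L₀ qv Qa b x) = TQ L₀ qv Q b (PiQ L₀ qv Q Qa a i x) := by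
  rw [TQ_apply, TQ_apply]
  unfold PiQ
  split_ifs with h1
  · exact PiE_hecke h1 i (qv b) (h.not_dvd_lev_mul hb) x hx
  · simp

/-- `IsCube` from the data on the edges, without rigidity. -/
theorem isCube_of_edges0 (h : MTW0 p T θ L₀ t n qv) (S : Set ℕ) (τ : Fin t → GQ)
    (hedge : ∀ (Q : Finset (Fin t)) (l : Fin t) (hl : l ∉ Q),
      FHyp p ((qv l : Nat.Primes) : ℕ) (nuP p qv l) (thetaPart (lev L₀ qv Q) p S θ)
        (thetaPart (lev L₀ qv (insert l Q)) p S θ) (TQ L₀ qv Q l)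
        (ioE (lev_insert L₀ qv hl)) (PiE (lev_insert L₀ qv hl))
        (tauQ L₀ qv τ (insert l Q) l)) :
    IsCube p S θ L₀ qv τ where
  edge := by
    rintro Q Q' l - hl rfl
    rw [ioQ_of_eq (lev_insert L₀ qv hl), PiQ_of_eq (lev_insert L₀ qv hl)]
    exact hedge Q l hl
  SS := by
    rintro Q Qa Qb Qab a b - hab ha hb rfl rfl rfl i j y -
    have hb' : b ∉ insert a Q := fun h' => (Finset.mem_insert.1 h').elim (fun e => hab e.symm) hb
    have ha' : a ∉ insert b Q := fun h' => (Finset.mem_insert.1 h').elim hab ha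
    have e4 : lev L₀ qv (insert b (insert a Q)) = lev L₀ qv (insert b Q) *
        ((qv a : Nat.Primes) : ℕ) * ((qv a : Nat.Primes) : ℕ) := by
      rw [Finset.insert_comm]; exact lev_insert L₀ qv ha'
    rw [PiQ_of_eq (lev_insert L₀ qv ha), PiQ_of_eq (lev_insert L₀ qv hb'),
      PiQ_of_eq (lev_insert L₀ qv hb), PiQ_of_eq e4]
    exact PiE_PiE _ _ _ _ i j y
  SP := by
    rintro Q Qa Qb Qab a b - hab ha hb rfl rfl rfl i j x -
    have hb' : b ∉ insert a Q := fun h' => (Finset.mem_insert.1 h').elim (fun e => hab e.symm) hb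
    have ha' : a ∉ insert b Q := fun h' => (Finset.mem_insert.1 h').elim hab ha
    have e4 : lev L₀ qv (insert b (insert a Q)) = lev L₀ qv (insert b Q) *
        ((qv a : Nat.Primes) : ℕ) * ((qv a : Nat.Primes) : ℕ) := by
      rw [Finset.insert_comm]; exact lev_insert L₀ qv ha'
    rw [PiQ_of_eq (lev_insert L₀ qv ha), ioQ_of_eq (lev_insert L₀ qv hb'),
      ioQ_of_eq (lev_insert L₀ qv hb), PiQ_of_eq e4]
    exact PiE_ioE (qv a).2 (qv b).2 (fun e => hab (h.inj (Subtype.ext e))) _ _ _ _ i j x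
  TP := by
    rintro Q Qa a b - - - hb - i x hx
    exact PiQ_TQ0 h Q Qa a b hb i x hx.1
  τP := by
    rintro Q Qa a m - - - - i x -
    exact PiQ_tauQ τ Q Qa a m i x

/-- `IsCube` from (CTRL) and a choice of generators of inertia. -/
theorem isCube_of_tau0 (EC : MCtx p T θ rbar0) (TC : MTW0 p T θ L₀ t n qv)
    (hc : CtrlCube p T θ L₀ qv)
    (A : Fin t → ValuationSubring Qbar) (τ : Fin t → GQ)
    (hA : ∀ i, (A i).LiesOverPrime ((qv i : Nat.Primes) : ℕ))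
    (hτ : ∀ i, τ i ∈ (A i).inertiaSubgroupIn ℚ)
    (hgen : ∀ (i : Fin t) (Q : Finset (Fin t)),
      ∀ x ∈ thetaPart (lev L₀ qv Q) p (↑(cutS T qv) : Set ℕ) θ,
        p ^ (nuP p qv i + 1) • x = 0 → τ i • x = x →
        ∀ σ ∈ (A i).inertiaSubgroupIn ℚ, σ • x = x) :
    IsCube p (↑(cutS T qv) : Set ℕ) θ L₀ qv τ :=
  isCube_of_edges0 TC _ τ fun Q l hl =>
    edge_E0 EC (qv l).2 (TC.notT l) (subset_cutS T qv) (TC.not_dvd_lev hl) (TC.hS_edge hl)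
      (le_trans (Nat.le_add_left 1 n) (TC.le_nuP l)) (Tau.pow_nuP_dvd qv l)
      (Tau.not_pow_nuP_succ_dvd qv l) (TC.disc l) (hc Q l hl) (lev_insert L₀ qv hl) (hA l) (τ l)
      (hτ l) (hgen l (insert l Q))

/-- **`IsCube` from (CTRL) on the edges** (no rigidity of the base level). -/
theorem exists_isCube_of_ctrl (EC : MCtx p T θ rbar0) (TC : MTW0 p T θ L₀ t n qv)
    (hc : CtrlCube p T θ L₀ qv) :
    ∃ (A : Fin t → ValuationSubring Qbar) (τ : Fin t → GQ),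
      (∀ i, (A i).LiesOverPrime ((qv i : Nat.Primes) : ℕ)) ∧
      (∀ i, τ i ∈ (A i).inertiaSubgroupIn ℚ) ∧
      (∀ (i : Fin t) (Q : Finset (Fin t)),
        ∀ x ∈ thetaPart (lev L₀ qv Q) p (↑(cutS T qv) : Set ℕ) θ,
          p ^ (nuP p qv i + 1) • x = 0 → τ i • x = x →
          ∀ σ ∈ (A i).inertiaSubgroupIn ℚ, σ • x = x) ∧
      IsCube p (↑(cutS T qv) : Set ℕ) θ L₀ qv τ := by
  obtain ⟨A, τ, hA, hτ, hgen⟩ := exists_tau_of_ctrl EC TC hc
  exact ⟨A, τ, hA, hτ, hgen, isCube_of_tau0 EC TC hc A τ hA hτ hgen⟩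

end Cube

end Fermat.Agent.ML.TWFree
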