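import Fermat.Agent.ML.TWFree.Lev

/-!
# ML / TWFREE / Inst / Lvl : the top of the cube is the top of the tower

`lvl L₀ (extP qv) t = lev L₀ qv Finset.univ`, and the identification `topJ` of the two Jacobians (it respects `G_ℚ`, the Hecke
operators and the `θ`-parts).
-/

set_option autoImplicit false

noncomputable section

open AlgebraicCurve ModularCurve

namespace Fermat.Agent.ML.TWFree

open Fermat.Agent.RIB Fermat.Agent.GAL Fermat.Agent.GAL.PC

local notation "GQ" => (AlgebraicClosure ℚ ≃ₐ[ℚ] AlgebraicClosure ℚ)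

theorem lvl_eq_lev (L₀ : ℕ) {t : ℕ} (qv : Fin t → Nat.Primes) :
    lvl L₀ (extP qv) t = lev L₀ qv Finset.univ := by
  rw [lvl_eq_prod, lev, Finset.prod_range]
  congr 1
  exact Finset.prod_congr rfl fun i _ => by rw [extP_of_lt]

/-- the intermediate levels of the tower are vertices of the cube. -/
theorem lvl_eq_lev_filter (L₀ : ℕ) {t : ℕ} (qv : Fin t → Nat.Primes) (i : ℕ) (hi : i ≤ t) :
    lvl L₀ (extP qv) i = lev L₀ qv (Finset.univ.filter fun j : Fin t => (j : ℕ) < i) := by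
  induction i with
  | zero => simp [lev]
  | succ i ih =>
    have hit : i < t := hi
    have h1 : (Finset.univ.filter fun j : Fin t => (j : ℕ) < i + 1)
        = insert (⟨i, hit⟩ : Fin t) (Finset.univ.filter fun j : Fin t => (j : ℕ) < i) := by
      ext j
      simp only [Finset.mem_filter, Finset.mem_univ, true_and, Finset.mem_insert, Fin.ext_iff]
      omega
    rw [lvl_succ, ih hit.le, h1, lev_insert L₀ qv (by simp), ← extP_of_lt qv ⟨i, hit⟩]

variable (L₀ : ℕ) [NeZero L₀] {t : ℕ} (qv : Fin t → Nat.Primes)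

/-- `J₀(lev L₀ qv univ) = J₀(lvl L₀ (extP qv) t)`. -/
def topJ : JZero (lev L₀ qv Finset.univ) ≃+ JZero (lvl L₀ (extP qv) t) :=
  castJ (lvl_eq_lev L₀ qv).symm

variable {L₀ qv}

theorem topJ_smul (σ : GQ) (x : JZero (lev L₀ qv Finset.univ)) :
    topJ L₀ qv (σ • x) = σ • topJ L₀ qv x := castJ_smul _ σ x

theorem topJ_symm_smul (σ : GQ) (x : JZero (lvl L₀ (extP qv) t)) :
    (topJ L₀ qv).symm (σ • x) = σ • (topJ L₀ qv).symm x := by
  apply (topJ L₀ qv).injective
  rw [topJ_smul, AddEquiv.apply_symm_apply, AddEquiv.apply_symm_apply]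

theorem topJ_hecke (r : Nat.Primes) (x : JZero (lev L₀ qv Finset.univ)) :
    topJ L₀ qv (heckeOperatorBar _ r x) = heckeOperatorBar _ r (topJ L₀ qv x) :=
  castJ_hecke _ r x

theorem topJ_mem_thetaPart {p : ℕ} {S : Set ℕ} {θ : ℕ → ℤ} {x : JZero (lev L₀ qv Finset.univ)} :
    topJ L₀ qv x ∈ thetaPart (lvl L₀ (extP qv) t) p S θ ↔
      x ∈ thetaPart (lev L₀ qv Finset.univ) p S θ := castJ_mem_thetaPart _

theorem topJ_symm_mem_thetaPart {p : ℕ} {S : Set ℕ} {θ : ℕ → ℤ}
    {x : JZero (lvl L₀ (extP qv) t)} :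
    (topJ L₀ qv).symm x ∈ thetaPart (lev L₀ qv Finset.univ) p S θ ↔
      x ∈ thetaPart (lvl L₀ (extP qv) t) p S θ := by
  rw [← topJ_mem_thetaPart, AddEquiv.apply_symm_apply]

end Fermat.Agent.ML.TWFree
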