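import Fermat.Agent.ML.TWFree.Inst.Main
import Fermat.Agent.ML.TWFree.Inst.Lvl
import Fermat.Agent.ML.Main.Cell
import Fermat.Agent.Common.PlaceBridge

/-!
# ML / TWFREE / Inst / InBox : the intrinsic box `InBox` (all places, all inertia elements) from ONE generator per prime

* `Box.zOp_iterate_pow` : `z(τ)^a x = 0 ⟹ z(τ^k)^a x = 0`     (`z(τ) = τ⁻¹ (τ - 1)²`);
* `Box.zOp_iterate_conj` : `z(g τ g⁻¹)^a x = g z(τ)^a g⁻¹ x`;
* `CycOn p S θ I τ₀ m N` : on the `m`-torsion of `thetaPart N` every `σ ∈ I` acts as a power of `τ₀`;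
* `exists_tau_gen` : **[W3⁺]** one place `A i ∣ l_i`, one `τ i ∈ I_(A i)` with `CycOn` at ALL the levels `lev L₀ qv Q` (and at
  `lvl L₀ (extP qv) t`);   `CycOn.fixed` gives back the hypothesis `hgen` of `isCube_of_tau`;
* `inBox_of_cyc` : `G ≤ thetaPart N` Galois stable, `p^a G = 0`, `z(τ i)^a G = 0` for all `i`  ⟹  `InBox p qv a x` for all `x ∈ G`.
-/

set_option autoImplicit false
set_option linter.unusedSectionVars false

noncomputable section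

open AlgebraicCurve ModularCurve

namespace Fermat.Agent.ML.TWFree

open Fermat.Agent.RIB Fermat.Agent.GAL Fermat.Agent.GAL.PC

local notation "Qbar" => AlgebraicClosure ℚ
local notation "GQ" => (AlgebraicClosure ℚ ≃ₐ[ℚ] AlgebraicClosure ℚ)
local notation "M₂" => Matrix (Fin 2) (Fin 2)

namespace Box

section Abs

variable {J : Type*} [AddCommGroup J] [DistribMulAction GQ J]

/-- the action of `τ` as an element of the ring `End J`. -/
def uE (τ : GQ) : Module.End ℤ J := (DistribSMul.toAddMonoidHom J τ).toIntLinearMap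

@[simp] theorem uE_apply (τ : GQ) (x : J) : (uE τ : Module.End ℤ J) x = τ • x := rfl

theorem uE_pow (τ : GQ) (k : ℕ) : (uE (τ ^ k) : Module.End ℤ J) = uE τ ^ k := by
  induction k with
  | zero => ext x; simp
  | succ k ih =>
    ext x
    rw [pow_succ, pow_succ, Module.End.mul_apply, ← ih, uE_apply, uE_apply, uE_apply, mul_smul]

theorem uE_inv_mul (τ : GQ) : (uE τ⁻¹ : Module.End ℤ J) * uE τ = 1 := by
  ext x; simp

theorem uE_mul_inv (τ : GQ) : (uE τ : Module.End ℤ J) * uE τ⁻¹ = 1 := by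
  ext x; simp

theorem commute_uE (τ : GQ) : Commute (uE τ⁻¹ : Module.End ℤ J) (uE τ) := by
  rw [Commute, SemiconjBy, uE_inv_mul, uE_mul_inv]

/-- `z(τ) = τ⁻¹ (τ - 1)²`. -/
theorem zOp_eq (τ : GQ) (x : J) :
    zOp τ x = (uE τ⁻¹ * (uE τ - 1) ^ 2 : Module.End ℤ J) x := by
  have h : (uE τ⁻¹ * (uE τ - 1) ^ 2 : Module.End ℤ J) x
      = τ⁻¹ • (τ • (τ • x - x) - (τ • x - x)) := by
    rw [pow_two]
    rfl
  rw [h, zOp, smul_sub, smul_sub, smul_sub, smul_sub, inv_smul_smul, inv_smul_smul, two_nsmul]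
  abel

theorem zOp_iterate_eq (τ : GQ) (a : ℕ) (x : J) :
    (zOp τ)^[a] x = (uE τ⁻¹ ^ a * (uE τ - 1) ^ (2 * a) : Module.End ℤ J) x := by
  have h1 : (zOp τ : J → J) = ⇑(uE τ⁻¹ * (uE τ - 1) ^ 2 : Module.End ℤ J) :=
    funext fun y => zOp_eq τ y
  have hc : Commute (uE τ⁻¹ : Module.End ℤ J) ((uE τ - 1) ^ 2) :=
    ((commute_uE τ).sub_right (Commute.one_right _)).pow_right 2
  rw [h1, ← Module.End.pow_apply, hc.mul_pow, ← pow_mul]

/-- `z(τ)^a x = 0 ↔ (τ - 1)^(2a) x = 0`. -/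
theorem zOp_iterate_eq_zero_iff (τ : GQ) (a : ℕ) (x : J) :
    (zOp τ)^[a] x = 0 ↔ ((uE τ - 1) ^ (2 * a) : Module.End ℤ J) x = 0 := by
  rw [zOp_iterate_eq, Module.End.mul_apply]
  constructor
  · intro h
    have h2 : (uE τ ^ a * uE τ⁻¹ ^ a : Module.End ℤ J)
        (((uE τ - 1) ^ (2 * a) : Module.End ℤ J) x) = 0 := by
      rw [Module.End.mul_apply, h, map_zero]
    rwa [← (commute_uE τ).symm.mul_pow, uE_mul_inv, one_pow, Module.End.one_apply] at h2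
  · intro h
    rw [h, map_zero]

/-- `z(τ)^a x = 0 ⟹ z(τ^k)^a x = 0`. -/
theorem zOp_iterate_pow (τ : GQ) (k a : ℕ) (x : J) (h : (zOp τ)^[a] x = 0) :
    (zOp (τ ^ k))^[a] x = 0 := by
  rw [zOp_iterate_eq_zero_iff] at h ⊢
  have hc : Commute (∑ i ∈ Finset.range k, (uE τ : Module.End ℤ J) ^ i) (uE τ - 1) :=
    (Commute.sum_left _ _ _ fun i _ => (Commute.refl _).pow_left i).sub_right
      (Commute.one_right _)
  rw [uE_pow, ← geom_sum_mul, hc.mul_pow, Module.End.mul_apply, h, map_zero]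

/-- conjugation. -/
theorem zOp_conj (g τ : GQ) (x : J) : zOp (g * τ * g⁻¹) x = g • zOp τ (g⁻¹ • x) := by
  have h1 : (g * τ * g⁻¹)⁻¹ = g * τ⁻¹ * g⁻¹ := by group
  have h2 : g • ((2 : ℕ) • (g⁻¹ • x)) = (2 : ℕ) • (g • (g⁻¹ • x)) :=
    (DistribSMul.toAddMonoidHom J g).map_nsmul 2 (g⁻¹ • x)
  rw [zOp, zOp, h1, smul_sub, smul_add, mul_smul, mul_smul, mul_smul, mul_smul, h2,
    smul_inv_smul]

theorem zOp_iterate_conj (g τ : GQ) (a : ℕ) (x : J) :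
    (zOp (g * τ * g⁻¹))^[a] x = g • (zOp τ)^[a] (g⁻¹ • x) := by
  induction a generalizing x with
  | zero => simp
  | succ a ih =>
    rw [Function.iterate_succ_apply, Function.iterate_succ_apply, ih, zOp_conj, inv_smul_smul]

/-- two elements with the same action on a stable subgroup have the same `z`. -/
theorem zOp_iterate_congr (G : AddSubgroup J) (hG : ∀ g : GQ, ∀ x ∈ G, g • x ∈ G) {τ τ' : GQ}
    (h : ∀ x ∈ G, τ' • x = τ • x) (a : ℕ) : ∀ x ∈ G, (zOp τ')^[a] x = (zOp τ)^[a] x := by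
  have hinv : ∀ x ∈ G, τ'⁻¹ • x = τ⁻¹ • x := fun x hx => by
    have h1 := h (τ'⁻¹ • x) (hG _ x hx)
    rw [smul_inv_smul] at h1
    rw [eq_inv_smul_iff]
    exact h1.symm
  have h1 : ∀ x ∈ G, zOp τ' x = zOp τ x := fun x hx => by
    rw [zOp, zOp, h x hx, hinv x hx]
  have h2 : ∀ x ∈ G, zOp τ x ∈ G := fun x hx =>
    G.sub_mem (G.add_mem (hG _ x hx) (hG _ x hx)) (G.nsmul_mem hx 2)
  induction a with
  | zero => intro x _; rfl
  | succ a ih =>
    intro x hx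
    rw [Function.iterate_succ_apply, Function.iterate_succ_apply, h1 x hx, ih _ (h2 x hx)]

end Abs

end Box

/-! ### cyclicity of the image of inertia -/

/-- on the `m`-torsion of `thetaPart N` every `σ ∈ I` acts as a power of `τ₀`. -/
def CycOn (p : ℕ) (S : Set ℕ) (θ : ℕ → ℤ) (I : Subgroup GQ) (τ₀ : GQ) (m : ℕ) (N : ℕ) [NeZero N] :
    Prop :=
  ∀ σ ∈ I, ∃ k : ℕ, ∀ x ∈ thetaPart N p S θ, m • x = 0 → σ • x = τ₀ ^ k • x

theorem CycOn.cast {p : ℕ} {S : Set ℕ} {θ : ℕ → ℤ} {I : Subgroup GQ} {τ₀ : GQ} {m : ℕ}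
    {N N' : ℕ} [NeZero N] [NeZero N'] (h : CycOn p S θ I τ₀ m N) (e : N = N') :
    CycOn p S θ I τ₀ m N' := by
  subst e
  exact h

/-- `τ₀`-fixed ⟹ `I`-fixed. -/
theorem CycOn.fixed {p : ℕ} {S : Set ℕ} {θ : ℕ → ℤ} {I : Subgroup GQ} {τ₀ : GQ} {m : ℕ}
    {N : ℕ} [NeZero N] (h : CycOn p S θ I τ₀ m N) :
    ∀ x ∈ thetaPart N p S θ, m • x = 0 → τ₀ • x = x → ∀ σ ∈ I, σ • x = x := by
  intro x hx hm h0 σ hσ
  obtain ⟨k, hk⟩ := h σ hσ
  rw [hk x hx hm]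
  clear hk
  induction k with
  | zero => rw [pow_zero, one_smul]
  | succ k ih => rw [pow_succ, mul_smul, h0, ih]

theorem CycOn.mono {p : ℕ} {S : Set ℕ} {θ : ℕ → ℤ} {I : Subgroup GQ} {τ₀ : GQ} {m m' : ℕ}
    {N : ℕ} [NeZero N] (h : CycOn p S θ I τ₀ m N) (hm : m' ∣ m) : CycOn p S θ I τ₀ m' N := by
  intro σ hσ
  obtain ⟨k, hk⟩ := h σ hσ
  refine ⟨k, fun x hx hx0 => hk x hx ?_⟩
  obtain ⟨c, rfl⟩ := hm
  rw [mul_comm, mul_smul, hx0, smul_zero]

/-- **[TAU0⁺]** the generator of `RIB.exists_tau0`, with the cyclicity. -/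
theorem exists_tau0_gen {N l : ℕ} [NeZero N] (hl : l.Prime) {A : ValuationSubring Qbar}
    (hA : A.LiesOverPrime l) (X : AddSubgroup (JZero N))
    (hst : ∀ τ ∈ A.inertiaSubgroupIn ℚ, ∀ x ∈ X, τ • x ∈ X) (m : ℕ) (hm : m ≠ 0)
    (hXm : ∀ x ∈ X, m • x = 0) (P : ℕ) (hP : Nat.Coprime P l)
    (hord : ∀ τ ∈ A.inertiaSubgroupIn ℚ, ∀ x ∈ X, τ ^ P • x = x) :
    ∃ τ₀ ∈ A.inertiaSubgroupIn ℚ, ∀ τ ∈ A.inertiaSubgroupIn ℚ, ∃ n : ℕ,
      ∀ x ∈ X, τ • x = τ₀ ^ n • x := by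
  let h : ↥(A.inertiaSubgroupIn ℚ) →* Function.End X :=
    { toFun := fun τ x => ⟨(τ : GQ) • x.1, hst τ τ.2 x.1 x.2⟩
      map_one' := by
        funext x
        exact Subtype.ext (one_smul GQ x.1)
      map_mul' := fun τ τ' => by
        funext x
        exact Subtype.ext (mul_smul (τ : GQ) (τ' : GQ) x.1) }
  have hpow : ∀ (τ : ↥(A.inertiaSubgroupIn ℚ)) (n : ℕ) (x : X),
      (((h τ ^ n) x : X) : JZero N) = (τ : GQ) ^ n • x.1 := by
    intro τ n x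
    rw [← map_pow]
    rfl
  obtain ⟨L, hL1, hL2⟩ := exists_level_torsion N m hm
  obtain ⟨σ₀, hσ₀⟩ := S56.tame_cyclic hl hA h
    ⟨L, hL1, fun σ hσ => by
      funext x
      exact Subtype.ext (hL2 σ hσ x.1 (hXm x.1 x.2))⟩ P hP
    (fun σ => by
      funext x
      apply Subtype.ext
      rw [hpow]
      exact hord σ σ.2 x.1 x.2)
  refine ⟨σ₀, σ₀.2, fun τ hτ => ?_⟩
  obtain ⟨n, hn⟩ := hσ₀ ⟨τ, hτ⟩
  refine ⟨n, fun x hx => ?_⟩
  have h1 : (((h ⟨τ, hτ⟩) ⟨x, hx⟩ : X) : JZero N) = (σ₀ : GQ) ^ n • x := by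
    rw [hn, hpow]
  exact h1

variable {p : ℕ} [Fact p.Prime] {T : Finset ℕ} {θ : ℕ → ℤ} {rbar0 : GQ →* M₂ (ZMod p)}

namespace Tau

/-- an equality `g₁ = g₂` on the `m`-torsion of the `θ`-part descends along `iot _ _ 0`. -/
theorem eq_descent {S : Finset ℕ} {N N' l ν : ℕ} [NeZero N] [NeZero N'] [NeZero l]
    (EC : MCtx p T θ rbar0) (SC : MStep p T θ S N l ν) (h : N' = N * l * l)
    (g₁ g₂ : GQ) (m : ℕ)
    (H : ∀ x ∈ thetaPart N' p (↑S : Set ℕ) θ, m • x = 0 → g₁ • x = g₂ • x) :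
    ∀ x ∈ thetaPart N p (↑S : Set ℕ) θ, m • x = 0 → g₁ • x = g₂ • x := by
  subst h
  intro x hx hm
  have hS : ∀ r : ℕ, r.Prime → r ∉ (↑S : Set ℕ) → ¬ r ∣ N * l * l * p := fun r hr hrS hd =>
    hrS (Finset.mem_coe.2 (SC.hS r hr hd))
  have h1 := H (iot N l 0 x) (iot_mem_thetaPart hS 0 hx) (by rw [← map_nsmul, hm, map_zero])
  rw [← iot_smul, ← iot_smul] at h1
  have h2 : iot N l 0 (g₁ • x - g₂ • x) = 0 := by rw [map_sub, h1, sub_self]
  have h3 := Low.ctrl_inj EC SC (fun i => if i = 0 then g₁ • x - g₂ • x else 0)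
    (fun i => by
      by_cases hi : i = 0
      · simp only [hi, if_true]
        exact AddSubgroup.sub_mem _ (smul_mem_thetaPart g₁ hx) (smul_mem_thetaPart g₂ hx)
      · simp only [hi, if_false]
        exact AddSubgroup.zero_mem _)
    (by
      rw [iota_apply']
      simp [h2])
  have h4 := congrFun h3 0
  simp only [if_true, Pi.zero_apply] at h4
  exact sub_eq_zero.1 h4

/-- descent from `R ∪ Q` to `Q`. -/
theorem eq_descent_union {L₀ t n : ℕ} [NeZero L₀] {qv : Fin t → Nat.Primes}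
    (EC : MCtx p T θ rbar0) (TC : MTW p T θ L₀ t n qv) (g₁ g₂ : GQ) (m : ℕ)
    (R : Finset (Fin t)) : ∀ Q : Finset (Fin t), Disjoint R Q →
    (∀ x ∈ thetaPart (lev L₀ qv (R ∪ Q)) p (↑(cutS T qv) : Set ℕ) θ, m • x = 0 →
      g₁ • x = g₂ • x) →
    ∀ x ∈ thetaPart (lev L₀ qv Q) p (↑(cutS T qv) : Set ℕ) θ, m • x = 0 → g₁ • x = g₂ • x := by
  classical
  induction R using Finset.induction_on with
  | empty =>
    intro Q _ H
    rwa [Finset.empty_union] at H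
  | insert j R hj ih =>
    intro Q hd H
    rw [Finset.disjoint_insert_left] at hd
    refine ih Q hd.2 ?_
    have hj' : j ∉ R ∪ Q := fun h => (Finset.mem_union.1 h).elim hj hd.1
    rw [Finset.insert_union] at H
    exact eq_descent EC (mstepLev TC hj') (lev_insert L₀ qv hj') g₁ g₂ m H

end Tau

open Tau in
/-- **[W3⁺]** : one place `A i ∣ l_i` and one `τ i ∈ I_(A i)` GENERATING the image of `I_(A i)` on the `p^(ν_i+1)`-torsion of the
`θ`-part of ALL the levels `lev L₀ qv Q`. -/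
theorem exists_tau_gen {L₀ t n : ℕ} [NeZero L₀] {qv : Fin t → Nat.Primes}
    (EC : MCtx p T θ rbar0) (TC : MTW p T θ L₀ t n qv) :
    ∃ (A : Fin t → ValuationSubring Qbar) (τ : Fin t → GQ),
      (∀ i, (A i).LiesOverPrime ((qv i : Nat.Primes) : ℕ)) ∧
      (∀ i, τ i ∈ (A i).inertiaSubgroupIn ℚ) ∧
      ∀ (i : Fin t) (Q : Finset (Fin t)),
        CycOn p (↑(cutS T qv) : Set ℕ) θ ((A i).inertiaSubgroupIn ℚ) (τ i)
          (p ^ (nuP p qv i + 1)) (lev L₀ qv Q) := by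
  classical
  have hp : p.Prime := Fact.out
  have key : ∀ i : Fin t, ∃ (A : ValuationSubring Qbar) (τ : GQ),
      A.LiesOverPrime ((qv i : Nat.Primes) : ℕ) ∧ τ ∈ A.inertiaSubgroupIn ℚ ∧
      ∀ Q : Finset (Fin t), CycOn p (↑(cutS T qv) : Set ℕ) θ (A.inertiaSubgroupIn ℚ) τ
          (p ^ (nuP p qv i + 1)) (lev L₀ qv Q) := by
    intro i
    obtain ⟨A, hA⟩ := S54.exists_liesOverPrime (qv i).2
    have hpl : p ≠ ((qv i : Nat.Primes) : ℕ) := fun h => TC.notT i (h ▸ EC.p_mem)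
    have hrho := Low.rhoOrd EC (cutS T qv) (subset_cutS T qv) (lev L₀ qv Finset.univ)
      (fun r hr hd => mem_cutS_lev TC _ hr hd) (qv i).2 (TC.notT i)
      (le_trans (Nat.le_add_left 1 n) (TC.le_nuP i)) (pow_nuP_dvd qv i)
      (not_pow_nuP_succ_dvd qv i) (TC.disc i) hA
    obtain ⟨τ₀, hτ₀, hgen⟩ := exists_tau0_gen (qv i).2 hA
      (thetaPart (lev L₀ qv Finset.univ) p (↑(cutS T qv) : Set ℕ) θ ⊓
        (nsmulAddMonoidHom (p ^ (nuP p qv i + 1))).ker)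
      (fun τ _ x hx => ⟨smul_mem_thetaPart τ hx.1, by
        have h2 : p ^ (nuP p qv i + 1) • x = 0 := hx.2
        show p ^ (nuP p qv i + 1) • (τ • x) = 0
        have h3 := (DistribSMul.toAddMonoidHom (JZero (lev L₀ qv Finset.univ)) τ).map_nsmul
          (p ^ (nuP p qv i + 1)) x
        rw [h2, map_zero] at h3
        exact h3.symm⟩)
      (p ^ (nuP p qv i + 1)) (pow_ne_zero _ hp.ne_zero) (fun x hx => hx.2) (p ^ nuP p qv i)
      (Nat.Coprime.pow_left _ ((Nat.coprime_primes hp (qv i).2).2 hpl))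
      (fun τ hτ x hx => hrho τ hτ x hx.1)
    refine ⟨A, τ₀, hA, hτ₀, fun Q σ hσ => ?_⟩
    obtain ⟨k, hk⟩ := hgen σ hσ
    refine ⟨k, eq_descent_union EC TC σ (τ₀ ^ k) _ (Finset.univ \ Q) Q
      Finset.sdiff_disjoint ?_⟩
    rw [Finset.sdiff_union_of_subset (Finset.subset_univ Q)]
    exact fun x hx hm => hk x ⟨hx, hm⟩
  choose A τ h1 h2 h3 using key
  exact ⟨A, τ, h1, h2, h3⟩

/-- **the intrinsic box from one generator per prime.** -/
theorem inBox_of_cyc {S : Set ℕ} {t : ℕ} {qv : Fin t → Nat.Primes} {N : ℕ} [NeZero N] {a : ℕ}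
    {A : Fin t → ValuationSubring Qbar} {τ : Fin t → GQ} {e : Fin t → ℕ}
    (hA : ∀ i, (A i).LiesOverPrime ((qv i : Nat.Primes) : ℕ))
    (hcyc : ∀ i, CycOn p S θ ((A i).inertiaSubgroupIn ℚ) (τ i) (p ^ e i) N)
    (hae : ∀ i, a ≤ e i)
    (G : AddSubgroup (JZero N)) (hG : G ≤ thetaPart N p S θ) (hgal : ∀ g : GQ, ∀ x ∈ G, g • x ∈ G)
    (hpa : ∀ x ∈ G, p ^ a • x = 0) (hz : ∀ i, ∀ x ∈ G, (zOp (τ i))^[a] x = 0) :
    ∀ x ∈ G, InBox p qv a x := by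
  intro x hx
  refine ⟨hpa x hx, fun i A' hA' τ' hτ' => ?_⟩
  obtain ⟨g, rfl⟩ := Bridge.exists_smul_eq (qv i).2 (hA i) hA'
  rw [Bridge.mem_inertia_smul_iff (qv i).2 (hA i)] at hτ'
  obtain ⟨k, hk⟩ := (hcyc i).mono (pow_dvd_pow p (hae i)) _ hτ'
  have e1 : τ' = g * (g⁻¹ * τ' * g) * g⁻¹ := by group
  rw [e1, Box.zOp_iterate_conj]
  have hy : g⁻¹ • x ∈ G := hgal _ x hx
  rw [Box.zOp_iterate_congr G hgal (fun y hy => hk y (hG hy) (hpa y hy)) a _ hy,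
    Box.zOp_iterate_pow _ _ _ _ (hz i _ hy), smul_zero]

/-- **`IsCube` with generators** : the cube, with `τ i` generating the image of the inertia group at all the levels of the cube and at
the top `lvl L₀ (extP qv) t` of the tower. -/
theorem exists_isCube_cyc {L₀ t n : ℕ} [NeZero L₀] {qv : Fin t → Nat.Primes}
    (EC : MCtx p T θ rbar0) (TC : MTW p T θ L₀ t n qv) :
    ∃ (A : Fin t → ValuationSubring Qbar) (τ : Fin t → GQ),
      (∀ i, (A i).LiesOverPrime ((qv i : Nat.Primes) : ℕ)) ∧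
      (∀ i, τ i ∈ (A i).inertiaSubgroupIn ℚ) ∧
      (∀ (i : Fin t) (Q : Finset (Fin t)),
        CycOn p (↑(cutS T qv) : Set ℕ) θ ((A i).inertiaSubgroupIn ℚ) (τ i)
          (p ^ (nuP p qv i + 1)) (lev L₀ qv Q)) ∧
      (∀ i : Fin t, CycOn p (↑(cutS T qv) : Set ℕ) θ ((A i).inertiaSubgroupIn ℚ) (τ i)
          (p ^ (nuP p qv i + 1)) (lvl L₀ (extP qv) t)) ∧
      IsCube p (↑(cutS T qv) : Set ℕ) θ L₀ qv τ := by
  obtain ⟨A, τ, hA, hτ, hcyc⟩ := exists_tau_gen EC TC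
  exact ⟨A, τ, hA, hτ, hcyc, fun i => (hcyc i Finset.univ).cast (lvl_eq_lev L₀ qv).symm,
    isCube_of_tau EC TC A τ hA hτ fun i Q => (hcyc i Q).fixed⟩

/-- the box of a frame : `a ≤ ν_i + 1` as soon as `a ≤ n`. -/
theorem le_nuP_succ_of_le {L₀ t n a : ℕ} {qv : Fin t → Nat.Primes}
    (TC : MTW p T θ L₀ t n qv) (ha : a ≤ n) (i : Fin t) : a ≤ nuP p qv i + 1 := by
  have := TC.le_nuP i
  omega

end Fermat.Agent.ML.TWFree

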