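import Fermat.Agent.ML.TWFree.Lev
import Fermat.Agent.ML.Deg.CommTwo

/-!
# ML / TWFREE / Inst / Comm : [W1] the commutation squares of the cube of levels

For primes `a ≠ b` and FREE levels `Na = M a a`, `Nb = M b b`, `Nab = Na b b = Nb a a`:
* (SS) `PiE_PiE_comm` : push-push,
* (SP) `PiE_ioE_comm` : push along `a` of a pull-back along `b` = pull-back along `b` of the push,
* (PP) `ioE_ioE_comm` : pull-pull (not needed by `Cube`, free of charge).
Then the same statements through `PiQ`, `ioQ` on the cube `lev L₀ qv`.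
-/

set_option autoImplicit false

noncomputable section

open AlgebraicCurve ModularCurve

namespace Fermat.Agent.ML.TWFree

open Fermat.Agent.RIB Fermat.Agent.GAL Fermat.Agent.GAL.PC

section E

variable {M Na Nb Nab a b : ℕ} [NeZero M] [NeZero Na] [NeZero Nb] [NeZero Nab] [NeZero a]
  [NeZero b]

/-- (SS) push-push. -/
theorem PiE_PiE_comm (ha : Na = M * a * a) (hb : Nb = M * b * b) (hab : Nab = Na * b * b)
    (hba : Nab = Nb * a * a) (i j : Fin 3) (y : JZero Nab) :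
    PiE ha i (PiE hab j y) = PiE hb j (PiE hba i y) := by
  subst ha hb hab
  exact (Pii_Pii_sw22 M a b i j y).symm

/-- (SP) push along `a` after pull-back along `b`. -/
theorem PiE_ioE_comm (hpa : a.Prime) (hpb : b.Prime) (hne : a ≠ b) (ha : Na = M * a * a)
    (hb : Nb = M * b * b) (hab : Nab = Na * b * b) (hba : Nab = Nb * a * a) (i j : Fin 3)
    (x : JZero Na) :
    PiE hba i (ioE hab j x) = ioE hb j (PiE ha i x) := by
  subst ha hb hab
  exact Pii_sw22_iot M hpa hpb hne.symm i j x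

/-- (PP) pull-pull. -/
theorem ioE_ioE_comm (ha : Na = M * a * a) (hb : Nb = M * b * b) (hab : Nab = Na * b * b)
    (hba : Nab = Nb * a * a) (i j : Fin 3) (x : JZero M) :
    ioE hab j (ioE ha i x) = ioE hba i (ioE hb j x) := by
  subst ha hb hab
  have h := sw22_iot_iot M a b i j x
  have h2 := congrArg (castJ hba.symm) h
  rw [castJ_castJ] at h2
  exact h2

end E

section Q

variable {L₀ : ℕ} [NeZero L₀] {t : ℕ} {qv : Fin t → Nat.Primes}

omit [NeZero L₀] in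
/-- the four level equations of a square of the cube. -/
theorem lev_square {Q Qa Qb Qab : Finset (Fin t)} {a b : Fin t} (hab : a ≠ b) (ha : a ∉ Q)
    (hb : b ∉ Q) (hQa : Qa = insert a Q) (hQb : Qb = insert b Q) (hQab : Qab = insert b Qa) :
    lev L₀ qv Qa = lev L₀ qv Q * ((qv a : Nat.Primes) : ℕ) * ((qv a : Nat.Primes) : ℕ) ∧
    lev L₀ qv Qb = lev L₀ qv Q * ((qv b : Nat.Primes) : ℕ) * ((qv b : Nat.Primes) : ℕ) ∧
    lev L₀ qv Qab = lev L₀ qv Qa * ((qv b : Nat.Primes) : ℕ) * ((qv b : Nat.Primes) : ℕ) ∧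
    lev L₀ qv Qab = lev L₀ qv Qb * ((qv a : Nat.Primes) : ℕ) * ((qv a : Nat.Primes) : ℕ) := by
  subst hQa hQb hQab
  have hb' : b ∉ insert a Q := by
    rw [Finset.mem_insert, not_or]; exact ⟨hab.symm, hb⟩
  have ha' : a ∉ insert b Q := by
    rw [Finset.mem_insert, not_or]; exact ⟨hab, ha⟩
  refine ⟨lev_insert L₀ qv ha, lev_insert L₀ qv hb, lev_insert L₀ qv hb', ?_⟩
  rw [Finset.insert_comm]
  exact lev_insert L₀ qv ha'

/-- the field `SS` of `IsCube` (no hypothesis on `y`). -/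
theorem PiQ_PiQ_comm {Q Qa Qb Qab : Finset (Fin t)} {a b : Fin t} (hab : a ≠ b) (ha : a ∉ Q)
    (hb : b ∉ Q) (hQa : Qa = insert a Q) (hQb : Qb = insert b Q) (hQab : Qab = insert b Qa)
    (i j : Fin 3) (y : JZero (lev L₀ qv Qab)) :
    PiQ L₀ qv Q Qa a i (PiQ L₀ qv Qa Qab b j y) = PiQ L₀ qv Q Qb b j (PiQ L₀ qv Qb Qab a i y) := by
  obtain ⟨h1, h2, h3, h4⟩ := lev_square (L₀ := L₀) (qv := qv) hab ha hb hQa hQb hQab
  rw [PiQ_of_eq h1, PiQ_of_eq h2, PiQ_of_eq h3, PiQ_of_eq h4]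
  exact PiE_PiE_comm h1 h2 h3 h4 i j y

/-- the field `SP` of `IsCube` (no hypothesis on `x`). -/
theorem PiQ_ioQ_comm (hqv : Function.Injective qv) {Q Qa Qb Qab : Finset (Fin t)} {a b : Fin t}
    (hab : a ≠ b) (ha : a ∉ Q) (hb : b ∉ Q) (hQa : Qa = insert a Q) (hQb : Qb = insert b Q)
    (hQab : Qab = insert b Qa) (i j : Fin 3) (x : JZero (lev L₀ qv Qa)) :
    PiQ L₀ qv Qb Qab a i (ioQ L₀ qv Qa Qab b j x) = ioQ L₀ qv Q Qb b j (PiQ L₀ qv Q Qa a i x) := by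
  obtain ⟨h1, h2, h3, h4⟩ := lev_square (L₀ := L₀) (qv := qv) hab ha hb hQa hQb hQab
  rw [PiQ_of_eq h1, ioQ_of_eq h2, ioQ_of_eq h3, PiQ_of_eq h4]
  exact PiE_ioE_comm (qv a).2 (qv b).2
    (fun h => hab (hqv (Subtype.ext h))) h1 h2 h3 h4 i j x

/-- pull-pull on the cube. -/
theorem ioQ_ioQ_comm {Q Qa Qb Qab : Finset (Fin t)} {a b : Fin t} (hab : a ≠ b) (ha : a ∉ Q)
    (hb : b ∉ Q) (hQa : Qa = insert a Q) (hQb : Qb = insert b Q) (hQab : Qab = insert b Qa)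
    (i j : Fin 3) (x : JZero (lev L₀ qv Q)) :
    ioQ L₀ qv Qa Qab b j (ioQ L₀ qv Q Qa a i x) = ioQ L₀ qv Qb Qab a i (ioQ L₀ qv Q Qb b j x) := by
  obtain ⟨h1, h2, h3, h4⟩ := lev_square (L₀ := L₀) (qv := qv) hab ha hb hQa hQb hQab
  rw [ioQ_of_eq h1, ioQ_of_eq h2, ioQ_of_eq h3, ioQ_of_eq h4]
  exact ioE_ioE_comm h1 h2 h3 h4 i j x

end Q

end Fermat.Agent.ML.TWFree
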