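import Fermat.Agent.ML.TWFree.Inst.Step
import Fermat.Agent.ML.TWFree.Inst.Sq

/-!
# ML / TWFREE / Inst / Cube : [W4] assembly of `IsCube` from the one-step data on the edges
-/

set_option autoImplicit false

noncomputable section

open AlgebraicCurve ModularCurve

namespace Fermat.Agent.ML.TWFree

open Fermat.Agent.RIB Fermat.Agent.GAL Fermat.Agent.GAL.PC

local notation "GQ" => (AlgebraicClosure ℚ ≃ₐ[ℚ] AlgebraicClosure ℚ)

variable {p : ℕ} {T : Finset ℕ} {θ : ℕ → ℤ} {L₀ t n : ℕ} [NeZero L₀] {qv : Fin t → Nat.Primes}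

/-- **`IsCube` from the data on the edges** (the squares (SS), (SP), (TP), (τP) are unconditional). -/
theorem isCube_of_edges (h : MTW p T θ L₀ t n qv) (S : Set ℕ) (τ : Fin t → GQ)
    (hedge : ∀ (Q : Finset (Fin t)) (l : Fin t) (hl : l ∉ Q),
      FHyp p ((qv l : Nat.Primes) : ℕ) (nuP p qv l) (thetaPart (lev L₀ qv Q) p S θ)
        (thetaPart (lev L₀ qv (insert l Q)) p S θ) (TQ L₀ qv Q l)
        (ioE (lev_insert L₀ qv hl)) (PiE (lev_insert L₀ qv hl))
        (tauQ L₀ qv τ (insert l Q) l)) :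
    IsCube p S θ L₀ qv τ where
  edge := by
    rintro Q Q' l - hl rfl
    rw [ioQ_of_eq (lev_insert L₀ qv hl), PiQ_of_eq (lev_insert L₀ qv hl)]
    exact hedge Q l hl
  SS := by
    rintro Q Qa Qb Qab a b - hab ha hb rfl rfl rfl i j y -
    have hb' : b ∉ insert a Q := fun h' => (Finset.mem_insert.1 h').elim (fun e => hab e.symm) hb
    have ha' : a ∉ insert b Q := fun h' => (Finset.mem_insert.1 h').elim hab ha
    have e4 : lev L₀ qv (insert b (insert a Q)) = lev L₀ qv (insert b Q) *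
        ((qv a : Nat.Primes) : ℕ) * ((qv a : Nat.Primes) : ℕ) := by
      rw [Finset.insert_comm]; exact lev_insert L₀ qv ha'
    rw [PiQ_of_eq (lev_insert L₀ qv ha), PiQ_of_eq (lev_insert L₀ qv hb'),
      PiQ_of_eq (lev_insert L₀ qv hb), PiQ_of_eq e4]
    exact PiE_PiE _ _ _ _ i j y
  SP := by
    rintro Q Qa Qb Qab a b - hab ha hb rfl rfl rfl i j x -
    have hb' : b ∉ insert a Q := fun h' => (Finset.mem_insert.1 h').elim (fun e => hab e.symm) hb
    have ha' : a ∉ insert b Q := fun h' => (Finset.mem_insert.1 h').elim hab ha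
    have e4 : lev L₀ qv (insert b (insert a Q)) = lev L₀ qv (insert b Q) *
        ((qv a : Nat.Primes) : ℕ) * ((qv a : Nat.Primes) : ℕ) := by
      rw [Finset.insert_comm]; exact lev_insert L₀ qv ha'
    rw [PiQ_of_eq (lev_insert L₀ qv ha), ioQ_of_eq (lev_insert L₀ qv hb'),
      ioQ_of_eq (lev_insert L₀ qv hb), PiQ_of_eq e4]
    exact PiE_ioE (qv a).2 (qv b).2 (fun e => hab (h.inj (Subtype.ext e))) _ _ _ _ i j x
  TP := by
    rintro Q Qa a b - - - hb - i x hx
    exact PiQ_TQ h Q Qa a b hb i x hx.1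
  τP := by
    rintro Q Qa a m - - - - i x -
    exact PiQ_tauQ τ Q Qa a m i x

end Fermat.Agent.ML.TWFree
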