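import Fermat.Agent.ML.TWFree.Lev

/-!
# ML / TWFREE / Inst / Step : arithmetic of the levels `lev L₀ qv Q`, and (TP), (τP)

* `MTW.mem_cutS_lev`, `MTW.not_dvd_lev`, `MTW.mstep_lev` : the one-step context `MStep` on every edge of the cube;
* `PiQ_TQ` (TP), `PiQ_tauQ` (τP) : the push-forwards of the cube commute with `T_b` and with `G_ℚ`.
-/

set_option autoImplicit false

noncomputable section

open AlgebraicCurve ModularCurve

namespace Fermat.Agent.ML.TWFree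

open Fermat.Agent.RIB Fermat.Agent.GAL Fermat.Agent.GAL.PC

local notation "GQ" => (AlgebraicClosure ℚ ≃ₐ[ℚ] AlgebraicClosure ℚ)

section Arith

variable {p : ℕ} {T : Finset ℕ} {θ : ℕ → ℤ} {L₀ t n : ℕ} {qv : Fin t → Nat.Primes}

/-- a prime dividing `lev L₀ qv Q` divides `L₀` or is one of the `qv i`, `i ∈ Q`. -/
theorem dvd_lev {r : ℕ} (hr : r.Prime) {Q : Finset (Fin t)} (h : r ∣ lev L₀ qv Q) :
    r ∣ L₀ ∨ ∃ i ∈ Q, r = ((qv i : Nat.Primes) : ℕ) := by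
  rw [lev] at h
  rcases (Nat.Prime.dvd_mul hr).1 h with h | h
  · exact Or.inl h
  · obtain ⟨i, hi, h1⟩ := (Prime.dvd_finset_prod_iff hr.prime _).1 h
    refine Or.inr ⟨i, hi, ?_⟩
    rcases (Nat.Prime.dvd_mul hr).1 h1 with h2 | h2 <;>
      exact (Nat.prime_dvd_prime_iff_eq hr (qv i).2).1 h2

theorem dvd_lev_self (L₀ : ℕ) (qv : Fin t → Nat.Primes) (Q : Finset (Fin t)) :
    L₀ ∣ lev L₀ qv Q := Dvd.intro _ rfl

/-- every prime of `lev L₀ qv Q * p` is in `cutS T qv`. -/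
theorem _root_.Fermat.Agent.ML.MTW.mem_cutS_lev (h : MTW p T θ L₀ t n qv) (Q : Finset (Fin t))
    {r : ℕ} (hr : r.Prime) (hd : r ∣ lev L₀ qv Q * p) : r ∈ cutS T qv := by
  rcases (Nat.Prime.dvd_mul hr).1 hd with h1 | h1
  · rcases dvd_lev hr h1 with h2 | ⟨i, _, rfl⟩
    · exact subset_cutS T qv (h.lev r hr (h2.mul_right p))
    · exact mem_cutS_qv T qv i
  · exact subset_cutS T qv (h.lev r hr (h1.mul_left L₀))

/-- `qv i ∤ lev L₀ qv Q * p` for `i ∉ Q`. -/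
theorem _root_.Fermat.Agent.ML.MTW.not_dvd_lev_mul (h : MTW p T θ L₀ t n qv)
    {Q : Finset (Fin t)} {i : Fin t} (hi : i ∉ Q) :
    ¬ ((qv i : Nat.Primes) : ℕ) ∣ lev L₀ qv Q * p := by
  intro hd
  rcases (Nat.Prime.dvd_mul (qv i).2).1 hd with h1 | h1
  · rcases dvd_lev (qv i).2 h1 with h2 | ⟨j, hj, h2⟩
    · exact h.notT i (h.lev _ (qv i).2 (h2.mul_right p))
    · have : i = j := h.inj (Subtype.ext h2)
      exact hi (this ▸ hj)
  · exact h.notT i (h.lev _ (qv i).2 (h1.mul_left L₀))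

theorem _root_.Fermat.Agent.ML.MTW.not_dvd_lev (h : MTW p T θ L₀ t n qv)
    {Q : Finset (Fin t)} {i : Fin t} (hi : i ∉ Q) :
    ¬ ((qv i : Nat.Primes) : ℕ) ∣ lev L₀ qv Q :=
  fun hd => h.not_dvd_lev_mul hi (hd.mul_right p)

/-- **the one-step context on every edge of the cube.** -/
theorem _root_.Fermat.Agent.ML.MTW.mstep_lev [Fact p.Prime] (h : MTW p T θ L₀ t n qv)
    {Q : Finset (Fin t)} {i : Fin t} (hi : i ∉ Q) :
    MStep p T θ (cutS T qv) (lev L₀ qv Q) ((qv i : Nat.Primes) : ℕ) (nuP p qv i) where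
  hl := (qv i).2
  hlT := h.notT i
  hTS := subset_cutS T qv
  hlL := h.not_dvd_lev hi
  rigid := h.rigid.trans (dvd_lev_self L₀ qv Q)
  hS := fun r hr hd => by
    rw [← lev_insert L₀ qv hi] at hd
    exact h.mem_cutS_lev _ hr hd
  hν := le_trans (Nat.le_add_left 1 n) (h.le_nuP i)
  hdvd := pow_padicValNat_dvd
  hex := by
    have h1 : ((qv i : Nat.Primes) : ℕ) - 1 ≠ 0 := by
      have := (qv i).2.two_le
      omega
    exact pow_succ_padicValNat_not_dvd h1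
  disc := h.disc i

end Arith

section Comm

variable {p : ℕ} {T : Finset ℕ} {θ : ℕ → ℤ} {L₀ t n : ℕ} [NeZero L₀] {qv : Fin t → Nat.Primes}

section E

variable {N N' l : ℕ} [NeZero N] [NeZero N'] [NeZero l]

theorem PiE_smul (h : N' = N * l * l) (i : Fin 3) (σ : GQ) (y : JZero N') :
    PiE h i (σ • y) = σ • PiE h i y := by
  rw [PiE_apply, PiE_apply, castJ_smul, Pii_smul]

theorem ioE_smul (h : N' = N * l * l) (i : Fin 3) (σ : GQ) (x : JZero N) :
    ioE h i (σ • x) = σ • ioE h i x := by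
  rw [ioE_apply, ioE_apply, iot_smul, castJ_smul]

theorem PiE_hecke (h : N' = N * l * l) (i : Fin 3) (r : Nat.Primes) (hr : ¬ (r : ℕ) ∣ N' * p)
    (y : JZero N') (hy : y ∈ ptors (JZero N') p) :
    PiE h i (heckeOperatorBar N' r y) = heckeOperatorBar N r (PiE h i y) := by
  subst h
  exact Pii_hecke i r hr y hy

theorem ioE_hecke (h : N' = N * l * l) (i : Fin 3) (r : Nat.Primes) (hr : ¬ (r : ℕ) ∣ N' * p)
    (x : JZero N) (hx : x ∈ ptors (JZero N) p) :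
    ioE h i (heckeOperatorBar N r x) = heckeOperatorBar N' r (ioE h i x) := by
  subst h
  exact iot_hecke i r hr x hx

end E

/-- (τP) -/
theorem PiQ_tauQ (τ : Fin t → GQ) (Q Qa : Finset (Fin t)) (a m : Fin t) (i : Fin 3)
    (x : JZero (lev L₀ qv Qa)) :
    PiQ L₀ qv Q Qa a i (tauQ L₀ qv τ Qa m x) = tauQ L₀ qv τ Q m (PiQ L₀ qv Q Qa a i x) := by
  rw [tauQ_apply, tauQ_apply]
  unfold PiQ
  split_ifs with h
  · exact PiE_smul h i _ x
  · simp

/-- (TP) -/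
theorem PiQ_TQ (h : MTW p T θ L₀ t n qv) (Q Qa : Finset (Fin t)) (a b : Fin t) (hb : b ∉ Qa)
    (i : Fin 3) (x : JZero (lev L₀ qv Qa)) (hx : x ∈ ptors (JZero (lev L₀ qv Qa)) p) :
    PiQ L₀ qv Q Qa a i (TQ L₀ qv Qa b x) = TQ L₀ qv Q b (PiQ L₀ qv Q Qa a i x) := by
  rw [TQ_apply, TQ_apply]
  unfold PiQ
  split_ifs with h1
  · exact PiE_hecke h1 i (qv b) (h.not_dvd_lev_mul hb) x hx
  · simp

end Comm

end Fermat.Agent.ML.TWFree
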